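import Fermat.Prelude.Def_LanglandsTunnell_ExplicitLift
import Mathlib.LinearAlgebra.Matrix.GeneralLinearGroup.Defs
import Mathlib.Algebra.Group.Submonoid.Membership

/-!
# The lift of `GL₂(𝔽₃)` to `GL₂(ℤ[√-2])`

The matrices `Slift` and `Tlift` generate a group of order `48` on which reduction is bijective, so
reduction has a multiplicative section.
-/

set_option autoImplicit false

open Matrix FLT.ExplicitLift

namespace Fermat.Agent.LT.GaloisData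

/-- Entries of a two by two matrix. -/
abbrev Quad4 : Type := ℤ√(-2) × ℤ√(-2) × ℤ√(-2) × ℤ√(-2)

/-- The product on entries. -/
def quadMul (x y : Quad4) : Quad4 :=
  (x.1 * y.1 + x.2.1 * y.2.2.1, x.1 * y.2.1 + x.2.1 * y.2.2.2,
    x.2.2.1 * y.1 + x.2.2.2 * y.2.2.1, x.2.2.1 * y.2.1 + x.2.2.2 * y.2.2.2)

/-- The matrix with given entries. -/
def quadMat (x : Quad4) : Matrix (Fin 2) (Fin 2) (ℤ√(-2)) := !![x.1, x.2.1; x.2.2.1, x.2.2.2]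

/-- `quadMat` turns `quadMul` into matrix multiplication. -/
theorem quadMat_mul (x y : Quad4) : quadMat (quadMul x y) = quadMat x * quadMat y := by
  simp [quadMat, quadMul]

/-- The entries of a generator. -/
def genEntry : Bool → Quad4
  | false => (⟨-1, 0⟩, ⟨1, 0⟩, ⟨-1, 0⟩, ⟨0, 0⟩)
  | true => (⟨1, 0⟩, ⟨-1, 0⟩, ⟨0, -1⟩, ⟨-1, 1⟩)

theorem quadMat_genEntry : quadMat (genEntry false) = Slift ∧ quadMat (genEntry true) = Tlift :=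
  ⟨rfl, rfl⟩

/-- The group generated by `Slift` and `Tlift`, each element with a word. -/
def liftWords : List (List Bool × Quad4) := [
    ([], (⟨1, 0⟩, ⟨0, 0⟩, ⟨0, 0⟩, ⟨1, 0⟩)),
    ([false], (⟨-1, 0⟩, ⟨1, 0⟩, ⟨-1, 0⟩, ⟨0, 0⟩)),
    ([true], (⟨1, 0⟩, ⟨-1, 0⟩, ⟨0, -1⟩, ⟨-1, 1⟩)),
    ([false, false], (⟨0, 0⟩, ⟨-1, 0⟩, ⟨1, 0⟩, ⟨-1, 0⟩)),
    ([false, true], (⟨-1, -1⟩, ⟨0, 1⟩, ⟨-1, 0⟩, ⟨1, 0⟩)),
    ([true, false], (⟨0, 0⟩, ⟨1, 0⟩, ⟨1, 0⟩, ⟨0, -1⟩)),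
    ([true, true], (⟨1, 1⟩, ⟨0, -1⟩, ⟨2, 0⟩, ⟨-1, -1⟩)),
    ([false, false, true], (⟨0, 1⟩, ⟨1, -1⟩, ⟨1, 1⟩, ⟨0, -1⟩)),
    ([false, true, false], (⟨1, 0⟩, ⟨-1, -1⟩, ⟨0, 0⟩, ⟨-1, 0⟩)),
    ([false, true, true], (⟨1, -1⟩, ⟨-1, 0⟩, ⟨-1, -1⟩, ⟨0, 1⟩)),
    ([true, false, false], (⟨-1, 0⟩, ⟨0, 0⟩, ⟨-1, 1⟩, ⟨1, 0⟩)),
    ([true, false, true], (⟨0, -1⟩, ⟨-1, 1⟩, ⟨-1, 0⟩, ⟨1, 1⟩)),
    ([true, true, false], (⟨-1, 0⟩, ⟨1, 1⟩, ⟨-1, 1⟩, ⟨2, 0⟩)),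
    ([true, true, true], (⟨-1, 1⟩, ⟨1, 0⟩, ⟨0, 1⟩, ⟨1, 0⟩)),
    ([false, false, true, false], (⟨-1, 0⟩, ⟨0, 1⟩, ⟨-1, 0⟩, ⟨1, 1⟩)),
    ([false, false, true, true], (⟨-2, 0⟩, ⟨1, 1⟩, ⟨-1, 1⟩, ⟨1, 0⟩)),
    ([false, true, false, false], (⟨0, 1⟩, ⟨1, 0⟩, ⟨1, 0⟩, ⟨0, 0⟩)),
    ([false, true, false, true], (⟨-1, 1⟩, ⟨2, 0⟩, ⟨0, 1⟩, ⟨1, -1⟩)),
    ([false, true, true, false], (⟨0, 1⟩, ⟨1, -1⟩, ⟨1, 0⟩, ⟨-1, -1⟩)),
    ([false, true, true, true], (⟨1, 0⟩, ⟨0, 0⟩, ⟨1, -1⟩, ⟨-1, 0⟩)),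
    ([true, false, true, false], (⟨1, 0⟩, ⟨0, -1⟩, ⟨0, -1⟩, ⟨-1, 0⟩)),
    ([true, false, true, true], (⟨2, 0⟩, ⟨-1, -1⟩, ⟨1, -1⟩, ⟨-2, 0⟩)),
    ([true, true, false, false], (⟨0, -1⟩, ⟨-1, 0⟩, ⟨-1, -1⟩, ⟨-1, 1⟩)),
    ([true, true, false, true], (⟨1, -1⟩, ⟨-2, 0⟩, ⟨-1, -1⟩, ⟨-1, 1⟩)),
    ([true, true, true, false], (⟨0, -1⟩, ⟨-1, 1⟩, ⟨-1, -1⟩, ⟨0, 1⟩)),
    ([true, true, true, true], (⟨-1, 0⟩, ⟨0, 0⟩, ⟨0, 0⟩, ⟨-1, 0⟩)),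
    ([false, false, true, false, false], (⟨1, -1⟩, ⟨-1, 0⟩, ⟨0, -1⟩, ⟨-1, 0⟩)),
    ([false, false, true, false, true], (⟨1, 0⟩, ⟨-1, -1⟩, ⟨1, -1⟩, ⟨-2, 0⟩)),
    ([false, false, true, true, false], (⟨1, -1⟩, ⟨-2, 0⟩, ⟨0, -1⟩, ⟨-1, 1⟩)),
    ([false, false, true, true, true], (⟨0, -1⟩, ⟨-1, 0⟩, ⟨-1, 0⟩, ⟨0, 0⟩)),
    ([false, true, false, true, false], (⟨-1, -1⟩, ⟨-1, 1⟩, ⟨-1, 0⟩, ⟨0, 1⟩)),
    ([false, true, false, true, true], (⟨-1, -1⟩, ⟨-1, 1⟩, ⟨-2, 0⟩, ⟨1, 1⟩)),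
    ([false, true, true, false, false], (⟨-1, 0⟩, ⟨0, 1⟩, ⟨0, 1⟩, ⟨1, 0⟩)),
    ([false, true, true, false, true], (⟨-2, 0⟩, ⟨1, 1⟩, ⟨-1, 1⟩, ⟨2, 0⟩)),
    ([false, true, true, true, false], (⟨-1, 0⟩, ⟨1, 0⟩, ⟨0, 1⟩, ⟨1, -1⟩)),
    ([false, true, true, true, true], (⟨1, 0⟩, ⟨-1, 0⟩, ⟨1, 0⟩, ⟨0, 0⟩)),
    ([true, false, true, false, false], (⟨-1, 1⟩, ⟨1, 0⟩, ⟨1, 1⟩, ⟨0, -1⟩)),
    ([true, false, true, false, true], (⟨-1, 0⟩, ⟨1, 1⟩, ⟨0, 0⟩, ⟨1, 0⟩)),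
    ([true, false, true, true, false], (⟨-1, 1⟩, ⟨2, 0⟩, ⟨1, 1⟩, ⟨1, -1⟩)),
    ([true, false, true, true, true], (⟨0, 1⟩, ⟨1, 0⟩, ⟨1, 1⟩, ⟨1, -1⟩)),
    ([true, true, false, true, false], (⟨1, 1⟩, ⟨1, -1⟩, ⟨2, 0⟩, ⟨-1, -1⟩)),
    ([true, true, false, true, true], (⟨1, 1⟩, ⟨1, -1⟩, ⟨1, 0⟩, ⟨0, -1⟩)),
    ([true, true, true, false, false], (⟨1, 0⟩, ⟨0, -1⟩, ⟨1, 0⟩, ⟨-1, -1⟩)),
    ([true, true, true, false, true], (⟨2, 0⟩, ⟨-1, -1⟩, ⟨1, -1⟩, ⟨-1, 0⟩)),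
    ([false, false, true, true, true, false], (⟨1, 1⟩, ⟨0, -1⟩, ⟨1, 0⟩, ⟨-1, 0⟩)),
    ([false, false, true, true, true, true], (⟨0, 0⟩, ⟨1, 0⟩, ⟨-1, 0⟩, ⟨1, 0⟩)),
    ([false, true, true, true, false, false], (⟨0, 0⟩, ⟨-1, 0⟩, ⟨-1, 0⟩, ⟨0, 1⟩)),
    ([false, true, true, true, false, true], (⟨-1, -1⟩, ⟨0, 1⟩, ⟨-2, 0⟩, ⟨1, 1⟩))]

/-- The group generated by `Slift` and `Tlift`. -/
def liftTable : List Quad4 := liftWords.map Prod.snd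

theorem liftWords_eval : ∀ p ∈ liftWords,
    p.1.foldl (fun x b => quadMul x (genEntry b)) (⟨1, 0⟩, ⟨0, 0⟩, ⟨0, 0⟩, ⟨1, 0⟩) = p.2 := by
  decide +kernel

theorem liftTable_mul_gen : ∀ x ∈ liftTable, ∀ b : Bool, quadMul x (genEntry b) ∈ liftTable := by
  decide +kernel

/-- Reduction of entries. -/
def redEntry (z : ℤ√(-2)) : ZMod 3 := (z.re : ZMod 3) + (z.im : ZMod 3) * (-1)

theorem red_eq_redEntry (z : ℤ√(-2)) : red z = redEntry z := by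
  simp [red, redEntry, Zsqrtd.lift_apply_apply]

/-- The reduction of an entry tuple. -/
def redQuad (x : Quad4) : ZMod 3 × ZMod 3 × ZMod 3 × ZMod 3 :=
  (redEntry x.1, redEntry x.2.1, redEntry x.2.2.1, redEntry x.2.2.2)

theorem redQuad_nodup : (liftTable.map redQuad).Nodup := by decide +kernel

theorem redQuad_surjective : ∀ a b c d : ZMod 3, a * d - b * c ≠ 0 →
    ∃ x ∈ liftTable, redQuad x = (a, b, c, d) := by
  decide +kernel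

theorem red_quadMat (x : Quad4) :
    (quadMat x).map red = !![(redQuad x).1, (redQuad x).2.1; (redQuad x).2.2.1, (redQuad x).2.2.2] := by
  ext i j; fin_cases i <;> fin_cases j <;> simp [quadMat, redQuad, red_eq_redEntry]

/-- The matrices of the table. -/
def liftSet : Set (Matrix (Fin 2) (Fin 2) (ℤ√(-2))) := quadMat '' {x | x ∈ liftTable}

theorem closure_eq_liftSet :
    (Submonoid.closure ({Slift, Tlift} : Set (Matrix (Fin 2) (Fin 2) (ℤ√(-2)))) :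
      Set (Matrix (Fin 2) (Fin 2) (ℤ√(-2)))) = liftSet := by
  have h1 : (1 : Matrix (Fin 2) (Fin 2) (ℤ√(-2))) =
      quadMat (⟨1, 0⟩, ⟨0, 0⟩, ⟨0, 0⟩, ⟨1, 0⟩) := by
    rw [quadMat, Matrix.one_fin_two]
    rfl
  have hgen : ∀ b : Bool, quadMat (genEntry b) ∈ ({Slift, Tlift} : Set _) := by
    rintro (_ | _) <;> simp [quadMat_genEntry.1, quadMat_genEntry.2]
  refine subset_antisymm (fun X hX => ?_) ?_
  · induction hX using Submonoid.closure_induction_right with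
    | one => exact ⟨_, by decide +kernel, h1.symm⟩
    | mul_right X _ g hg ih =>
      obtain ⟨x, hx, rfl⟩ := ih
      obtain ⟨b, rfl⟩ : ∃ b, quadMat (genEntry b) = g := by
        rcases hg with rfl | rfl
        exacts [⟨false, quadMat_genEntry.1⟩, ⟨true, quadMat_genEntry.2⟩]
      exact ⟨_, liftTable_mul_gen x hx b, quadMat_mul _ _⟩
  · rintro _ ⟨x, hx, rfl⟩
    obtain ⟨p, hp, rfl⟩ := List.mem_map.mp hx
    rw [← liftWords_eval p hp]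
    have hmem : ∀ (l : List Bool) (s : Quad4),
        quadMat s ∈ Submonoid.closure ({Slift, Tlift} : Set _) →
        quadMat (l.foldl (fun x b => quadMul x (genEntry b)) s) ∈
          Submonoid.closure ({Slift, Tlift} : Set _) := by
      intro l
      induction l with
      | nil => exact fun s hs => hs
      | cons b l ih =>
        intro s hs
        exact ih _ (by rw [quadMat_mul]; exact mul_mem hs (Submonoid.subset_closure (hgen b)))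
    exact hmem _ _ (h1 ▸ one_mem _)

theorem eq_of_map_red_eq {X Y : Matrix (Fin 2) (Fin 2) (ℤ√(-2))} (hX : X ∈ liftSet)
    (hY : Y ∈ liftSet) (h : X.map red = Y.map red) : X = Y := by
  obtain ⟨x, hx, rfl⟩ := hX
  obtain ⟨y, hy, rfl⟩ := hY
  rw [red_quadMat, red_quadMat] at h
  refine congrArg quadMat (List.inj_on_of_nodup_map redQuad_nodup hx hy ?_)
  have e1 := congrFun (congrFun h 0) 0
  have e2 := congrFun (congrFun h 0) 1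
  have e3 := congrFun (congrFun h 1) 0
  have e4 := congrFun (congrFun h 1) 1
  simp at e1 e2 e3 e4
  exact Prod.ext e1 (Prod.ext e2 (Prod.ext e3 e4))

theorem exists_liftSet_map_red (g : GL (Fin 2) (ZMod 3)) :
    ∃ X ∈ liftSet, X.map red = (g : Matrix (Fin 2) (Fin 2) (ZMod 3)) := by
  have hne := (Matrix.GeneralLinearGroup.det g).ne_zero
  rw [Matrix.GeneralLinearGroup.val_det_apply, det_fin_two] at hne
  obtain ⟨x, hx, he⟩ := redQuad_surjective _ _ _ _ hne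
  refine ⟨_, ⟨x, hx, rfl⟩, ?_⟩
  rw [red_quadMat, he]
  exact (Matrix.eta_fin_two _).symm

/-- **The lift.** -/
theorem exists_lift :
    ∃ Ψ : GL (Fin 2) (ZMod 3) →* GL (Fin 2) (ℤ√(-2)),
      ∀ g, Matrix.GeneralLinearGroup.map red (Ψ g) = g := by
  choose X hX hred using exists_liftSet_map_red
  have hmem : ∀ {A : Matrix (Fin 2) (Fin 2) (ℤ√(-2))}, A ∈ liftSet ↔
      A ∈ Submonoid.closure ({Slift, Tlift} : Set (Matrix (Fin 2) (Fin 2) (ℤ√(-2)))) :=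
    fun {A} => by rw [← closure_eq_liftSet]; rfl
  have hone : X 1 = 1 := eq_of_map_red_eq (hX 1) (hmem.mpr (one_mem _)) (by
    rw [hred, Units.val_one, Matrix.map_one (f := red) (map_zero _) (map_one _)])
  let f : GL (Fin 2) (ZMod 3) →* Matrix (Fin 2) (Fin 2) (ℤ√(-2)) :=
    { toFun := X
      map_one' := hone
      map_mul' := fun g h => eq_of_map_red_eq (hX _)
        (hmem.mpr (mul_mem (hmem.mp (hX g)) (hmem.mp (hX h)))) (by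
          rw [hred, Matrix.map_mul, hred, hred, Units.val_mul]) }
  exact ⟨f.toHomUnits, fun g => Units.ext (hred g)⟩

end Fermat.Agent.LT.GaloisData
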