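import Fermat.Agent.LT.GaloisData.GalRep
import Fermat.Agent.LT.Chain.Defs

/-!
# The image of the decomposition group at supersingular `3`

The image meets `SL₂(𝔽₃)` inside the quaternion group, and inertia maps onto a cyclic group of
order eight.
-/

set_option autoImplicit false

noncomputable section

open Matrix
open Fermat.Agent.GaloisBasics (Qbar GalQ)
open Fermat.Agent.LT.Final (GF3)

namespace Fermat.Agent.LT.GaloisData

theorem eigenvector_cases : ∀ a b c d : ZMod 3, a * d - b * c = 1 → !![a, b; c, d] ^ 4 ≠ 1 →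
    ∃ v : Fin 2 → ZMod 3, v ≠ 0 ∧ (!![a, b; c, d] *ᵥ v = v ∨ !![a, b; c, d] *ᵥ v = -v) := by
  decide +kernel

set_option synthInstance.maxSize 1024 in
theorem scalar_of_lines : ∀ a b c d : ZMod 3, a * d - b * c ≠ 0 →
    (∀ v : Fin 2 → ZMod 3, v ≠ 0 → !![a, b; c, d] *ᵥ v = v ∨ !![a, b; c, d] *ᵥ v = -v) →
    !![a, b; c, d] = 1 ∨ !![a, b; c, d] = -1 := by
  decide +kernel

theorem eq_or_eq_neg_of_lines (g : GF3)
    (h : ∀ v : Fin 2 → ZMod 3, v ≠ 0 →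
      (g : Matrix (Fin 2) (Fin 2) (ZMod 3)) *ᵥ v = v ∨
        (g : Matrix (Fin 2) (Fin 2) (ZMod 3)) *ᵥ v = -v) : g = 1 ∨ g = -1 := by
  have h' : (g : Matrix (Fin 2) (Fin 2) (ZMod 3)) = 1 ∨
      (g : Matrix (Fin 2) (Fin 2) (ZMod 3)) = -1 := by
    revert h
    exact forall_gf3 (P := fun M => (∀ v : Fin 2 → ZMod 3, v ≠ 0 → M *ᵥ v = v ∨ M *ᵥ v = -v) →
      M = 1 ∨ M = -1) scalar_of_lines g
  rcases h' with e | e
  · exact Or.inl (Units.ext e)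
  · exact Or.inr (Units.ext (e.trans (by simp)))

theorem exists_eigenline {g : GF3} (hg : g ∈ slGroup) (hn : g ∉ quatGroup) :
    ∃ v : Fin 2 → ZMod 3, v ≠ 0 ∧ ((g : Matrix (Fin 2) (Fin 2) (ZMod 3)) *ᵥ v = v ∨
      (g : Matrix (Fin 2) (Fin 2) (ZMod 3)) *ᵥ v = -v) := by
  have h1 := (det_eq_one_iff g).mp hg
  have h4 : (g : Matrix (Fin 2) (Fin 2) (ZMod 3)) ^ 4 ≠ 1 := fun e =>
    hn ⟨hg, Units.ext (by rw [Units.val_pow_eq_pow_val, e, Units.val_one])⟩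
  revert h1 h4
  refine forall_gf3 (P := fun M => M.det = 1 → M ^ 4 ≠ 1 →
    ∃ v : Fin 2 → ZMod 3, v ≠ 0 ∧ (M *ᵥ v = v ∨ M *ᵥ v = -v)) ?_ g
  intro a b c d _ h1
  rw [Matrix.det_fin_two_of] at h1
  exact eigenvector_cases a b c d h1

/-- An invertible matrix maps nonzero vectors to nonzero vectors. -/
theorem mulVec_ne_zero (g : GF3) {v : Fin 2 → ZMod 3} (hv : v ≠ 0) :
    (g : Matrix (Fin 2) (Fin 2) (ZMod 3)) *ᵥ v ≠ 0 := fun e => hv (by
  have := congrArg (((g⁻¹ : GF3) : Matrix (Fin 2) (Fin 2) (ZMod 3)) *ᵥ ·) e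
  simpa only [Matrix.mulVec_mulVec, Units.inv_mul, Matrix.one_mulVec, Matrix.mulVec_zero] using this)

theorem supersingular_coeffs {W : WeierstrassCurve ℤ} (hs : Chain.SupersingularAtThree W) :
    (3 : ℤ) ∣ W.b₂ ∧ ¬ (3 : ℤ) ∣ W.b₈ := by
  obtain ⟨h3, hc⟩ := hs
  have hb2 : (3 : ℤ) ∣ W.b₂ := by
    refine Int.prime_three.dvd_of_dvd_pow (n := 2) ?_
    have e : W.b₂ ^ 2 = W.c₄ + 3 * (8 * W.b₄) := by rw [WeierstrassCurve.c₄]; ring
    rw [e]
    exact dvd_add hc (dvd_mul_right _ _)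
  refine ⟨hb2, fun h8 => ?_⟩
  obtain ⟨β, hβ⟩ := hb2
  have h4 : (3 : ℤ) ∣ W.b₄ ^ 2 := by
    have e := W.b_relation
    obtain ⟨γ, hγ⟩ := h8
    exact ⟨β * W.b₆ - 4 * γ, by rw [hγ, hβ] at e; linear_combination e⟩
  obtain ⟨δ, hδ⟩ := Int.prime_three.dvd_of_dvd_pow h4
  refine h3 ⟨-3 * β ^ 2 * W.b₈ - 72 * δ ^ 3 - 9 * W.b₆ ^ 2 + 27 * β * δ * W.b₆, ?_⟩
  rw [WeierstrassCurve.Δ, hβ, hδ]; ring

variable {W : WeierstrassCurve ℤ} {hΔ : W.Δ ≠ 0} {A : ValuationSubring Qbar}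

/-- The decomposition group at a supersingular `3` meets `SL₂` in the quaternion group, so the
places above `3` split in the cubic field. -/
theorem decomposition_three_le (hs : Chain.SupersingularAtThree W) (hA : A.LiesOverPrime 3)
    {σ : GalQ} (hσ : σ ∈ A.decompositionSubgroup ℚ) (hdet : rhoThree W hΔ σ ∈ slGroup) :
    rhoThree W hΔ σ ∈ quatGroup := by
  by_contra hn
  obtain ⟨h₂, h₈⟩ := supersingular_coeffs hs
  obtain ⟨χ, hroot, heq, hinj, hneg⟩ := exists_xCoord W hΔ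
  set g := rhoThree W hΔ σ
  obtain ⟨v, hv, hgv⟩ := exists_eigenline hdet hn
  have hfix : σ (χ v) = χ v := by
    rw [← heq σ v hv]
    rcases hgv with e | e <;> rw [e]
    exact hneg v
  apply hn
  refine ⟨hdet, ?_⟩
  have hsq : g ^ 2 = 1 ∨ g ^ 2 = -1 := by
    refine eq_or_eq_neg_of_lines _ fun w hw => ?_
    have hx : χ (((g ^ 2 : GF3) : Matrix (Fin 2) (Fin 2) (ZMod 3)) *ᵥ w) = χ w := by
      rw [pow_two, ← map_mul, heq (σ * σ) w hw, AlgEquiv.mul_apply]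
      exact sq_apply_root hA h₂ h₈ (hroot v hv) (hroot w hw) hσ hfix
    exact hinj w _ hw (mulVec_ne_zero _ hw) hx.symm
  rw [show 4 = 2 * 2 from rfl, pow_mul]
  rcases hsq with e | e <;> rw [e]
  · exact one_pow _
  · exact neg_one_sq

/-- If `det g ≠ 1` and `g⁴ = -1`, then `g² v ≠ ±v` for every nonzero `v`. -/
theorem order_eight_cases : ∀ a b c d : ZMod 3, a * d - b * c ≠ 0 →
    a * d - b * c ≠ 1 → !![a, b; c, d] ^ 4 = -1 → ∀ v : Fin 2 → ZMod 3, v ≠ 0 →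
      !![a, b; c, d] *ᵥ (!![a, b; c, d] *ᵥ v) ≠ v ∧
        !![a, b; c, d] *ᵥ (!![a, b; c, d] *ᵥ v) ≠ -v := by
  decide +kernel

/-- Inertia at a supersingular `3` maps onto a cyclic group of order eight. -/
theorem inertia_three_eq (hs : Chain.SupersingularAtThree W) (hA : A.LiesOverPrime 3) :
    ∃ σ ∈ A.inertiaSubgroupIn ℚ, rhoThree W hΔ σ ∉ slGroup ∧ rhoThree W hΔ σ ^ 4 = -1 ∧
      (A.inertiaSubgroupIn ℚ).map (rhoThree W hΔ) = Subgroup.zpowers (rhoThree W hΔ σ) := by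
  obtain ⟨h₂, h₈⟩ := supersingular_coeffs hs
  obtain ⟨χ, hroot, heq, hinj, hneg⟩ := exists_xCoord W hΔ
  set v : Fin 2 → ZMod 3 := ![1, 0] with hvdef
  have hv : v ≠ 0 := by simp [hvdef]
  obtain ⟨σ, hσ, hmove⟩ := exists_inertia_sq_ne hA h₂ h₈ (hroot v hv)
  set g := rhoThree W hΔ σ with hg
  have hmem := Fermat.Agent.LocalInertia.inertiaSubgroupIn_le_decompositionSubgroup hσ
  have hsq : ∀ w : Fin 2 → ZMod 3, w ≠ 0 →
      χ ((g : Matrix (Fin 2) (Fin 2) (ZMod 3)) *ᵥ ((g : Matrix (Fin 2) (Fin 2) (ZMod 3)) *ᵥ w)) =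
        σ (σ (χ w)) := fun w hw => by rw [heq σ _ (mulVec_ne_zero g hw), heq σ w hw]
  have hg2 : ∀ c : GF3, (c = 1 ∨ c = -1) → g ^ 2 ≠ c := by
    intro c hc e
    apply hmove
    rw [← hsq v hv, Matrix.mulVec_mulVec, ← Units.val_mul, ← pow_two, e]
    rcases hc with rfl | rfl
    · rw [Units.val_one, Matrix.one_mulVec]
    · rw [Units.val_neg, Units.val_one, Matrix.neg_mulVec, Matrix.one_mulVec, hneg]
  have hns : g ∉ slGroup := by
    intro hin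
    have hQ := decomposition_three_le (hΔ := hΔ) hs hA hmem hin
    by_cases h1 : g = 1
    · exact hg2 1 (Or.inl rfl) (by rw [h1, one_pow])
    by_cases h2 : g = -1
    · exact hg2 1 (Or.inl rfl) (by rw [h2, neg_one_sq])
    have hall : ∀ M ∈ quatList, M ≠ 1 → M ≠ -1 → M * M = -1 := by decide +kernel
    refine hg2 (-1) (Or.inr rfl) (Units.ext ?_)
    rw [pow_two, Units.val_mul, Units.val_neg, Units.val_one]
    exact hall _ ((inQuaternion_iff_mem g).mp hQ) (fun e => h1 (Units.ext e))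
      (fun e => h2 (Units.ext e))
  have h4 : g ^ 4 = -1 := by
    have h : (g : Matrix (Fin 2) (Fin 2) (ZMod 3)).det ≠ 1 →
        (g : Matrix (Fin 2) (Fin 2) (ZMod 3)) ^ 2 = 1 ∨
          ((g : Matrix (Fin 2) (Fin 2) (ZMod 3)) ^ 2 ≠ 1 ∧
            (g : Matrix (Fin 2) (Fin 2) (ZMod 3)) ^ 4 = -1) := by
      refine forall_gf3 (P := fun M => M.det ≠ 1 → M ^ 2 = 1 ∨ (M ^ 2 ≠ 1 ∧ M ^ 4 = -1)) ?_ g
      intro a b c d hne h1
      rw [Matrix.det_fin_two_of] at h1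
      exact nonsl_cases a b c d hne h1
    rcases h (fun e => hns ((det_eq_one_iff g).mpr e)) with e | ⟨-, e⟩
    · exact absurd (Units.ext (by rw [Units.val_pow_eq_pow_val, e, Units.val_one]))
        (hg2 1 (Or.inl rfl))
    · exact Units.ext (by rw [Units.val_pow_eq_pow_val, e, Units.val_neg, Units.val_one])
  refine ⟨σ, hσ, hns, h4, le_antisymm ?_ (Subgroup.zpowers_le.mpr ⟨σ, hσ, rfl⟩)⟩
  rintro _ ⟨τ, hτ, rfl⟩
  obtain ⟨k, hk⟩ := inertia_cyclic hA h₂ h₈ (hroot v hv) hσ hmove hτ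
  have hgk : g ^ k = rhoThree W hΔ (σ ^ k) := (map_pow _ σ k).symm
  have hgn : (-1 : GF3) ∈ Subgroup.zpowers g := h4 ▸ pow_mem (Subgroup.mem_zpowers g) 4
  have hr : (g ^ k)⁻¹ * rhoThree W hΔ τ = 1 ∨ (g ^ k)⁻¹ * rhoThree W hΔ τ = -1 := by
    refine eq_or_eq_neg_of_lines _ fun w hw => ?_
    rw [hgk, ← map_inv, ← map_mul]
    refine hinj w _ hw (mulVec_ne_zero _ hw) ?_
    rw [heq _ w hw, AlgEquiv.mul_apply, hk _ (hroot w hw)]
    exact ((σ ^ k).symm_apply_apply (χ w)).symm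
  rcases hr with e | e <;> rw [inv_mul_eq_iff_eq_mul] at e <;> rw [e]
  · rw [mul_one]; exact pow_mem (Subgroup.mem_zpowers g) k
  · exact mul_mem (pow_mem (Subgroup.mem_zpowers g) k) hgn

end Fermat.Agent.LT.GaloisData

end
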