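import Fermat.Agent.LT.GaloisData.Psi
import Fermat.Agent.GaloisBasics.Unramified
import Fermat.Agent.GlobalUnits.Places
import Mathlib.RingTheory.Ideal.Norm.AbsNorm
import Mathlib.FieldTheory.Finite.Basic

/-!
# Frobenius elements over the primes of a subfield of `ℚ̄`

`IsFrobOver K P g`: `P` has norm `p ^ f`, is below a place `A` over `p` and `g` is the `f`-th power
of a Frobenius element at `A`. If `P` is unramified over `p` then `g` fixes `K`, and the trace of
the lift at `g` does not depend on the choices.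
-/

set_option autoImplicit false

noncomputable section

open NumberField
open scoped Pointwise
open Fermat.Agent.GaloisBasics
open Fermat.Agent.LT.Final (GF3 InQuaternion)

namespace Fermat.Agent.LT.GaloisData

variable (K : IntermediateField ℚ Qbar) [FiniteDimensional ℚ K]

/-- `g` is a Frobenius element over the prime `P` of `K`. -/
def IsFrobOver (P : Ideal (𝓞 K)) (g : GalQ) : Prop :=
  ∃ (p f : ℕ) (A : ValuationSubring Qbar) (σ : GalQ), p.Prime ∧ A.LiesOverPrime p ∧
    A.IsFrobeniusAt σ p ∧ intIdeal K A = P ∧ Ideal.absNorm P = p ^ f ∧ g = σ ^ f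

/-- The residue ring of an ideal has `absNorm` elements. -/
theorem natCard_quotient (P : Ideal (𝓞 K)) : Nat.card (𝓞 K ⧸ P) = Ideal.absNorm P := by
  rw [Ideal.absNorm_apply, Submodule.cardQuot_apply]

/-- Every nonzero prime has a Frobenius element. -/
theorem exists_isFrobOver {P : Ideal (𝓞 K)} (hP : P.IsPrime) (h0 : P ≠ ⊥) :
    ∃ g, IsFrobOver K P g := by
  have : P.IsMaximal := hP.isMaximal h0
  let _ : Field (𝓞 K ⧸ P) := Ideal.Quotient.field P
  have : Finite (𝓞 K ⧸ P) := P.finiteQuotientOfFreeOfNeBot h0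
  let _ := Fintype.ofFinite (𝓞 K ⧸ P)
  obtain ⟨p, f, hp, -, hcard⟩ := FiniteField.isPrimePow_card (𝓞 K ⧸ P)
  rw [← Nat.prime_iff] at hp
  have hN : Ideal.absNorm P = p ^ f := by
    rw [← natCard_quotient, Nat.card_eq_fintype_card, hcard]
  have hmem : (p : 𝓞 K) ∈ P := by
    have h := Ideal.absNorm_mem P
    rw [hN, Nat.cast_pow] at h
    exact hP.mem_of_pow_mem f h
  obtain ⟨A, hA, hAP⟩ := exists_intIdeal_eq K hp P hmem
  obtain ⟨σ, hσ⟩ := exists_isFrobeniusAt hA hp
  exact ⟨σ ^ f, p, f, A, σ, hp, hA, hσ, hAP, hN, rfl⟩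

variable {K}

/-- Iterates of a Frobenius element on the algebraic integers. -/
theorem pow_frobenius_sub_mem {A : ValuationSubring Qbar} {q : ℕ} {σ : GalQ}
    (hA : A.LiesOverPrime q) (hq : q.Prime) (hσ : A.IsFrobeniusAt σ q) (n : ℕ) (b : Zbar) :
    σ ^ n • b - b ^ q ^ n ∈ zbarIdeal A := by
  have h := (isFrobeniusAt_iff_zbar hA hq).mp hσ
  induction n with
  | zero => simp
  | succ n ih =>
    rw [← zbarResidue_eq_iff] at ih ⊢
    have h1 := zbarResidue_eq_iff.mpr (h (σ ^ n • b))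
    rw [← mul_smul, ← pow_succ', map_pow, ih, map_pow, ← pow_mul, ← pow_succ] at h1
    rw [map_pow]
    exact h1

/-- A Frobenius element over an unramified prime fixes the field. -/
theorem IsFrobOver.mem_fixingSubgroup {P : Ideal (𝓞 K)} {g : GalQ} (h : IsFrobOver K P g)
    (hI : ∀ (p : ℕ) (A : ValuationSubring Qbar), p.Prime → A.LiesOverPrime p →
      intIdeal K A = P → A.inertiaSubgroupIn ℚ ≤ K.fixingSubgroup) :
    g ∈ K.fixingSubgroup := by
  obtain ⟨p, f, A, σ, hp, hA, hσ, hAP, hN, rfl⟩ := h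
  have : (intIdeal K A).IsMaximal := intIdeal_isMaximal K hA hp
  obtain ⟨τ, hτ, hτI⟩ := exists_mem_inertia_lift hA hp K.fixingSubgroup
    (InfiniteGalois.fixingSubgroup_isClosed K) (σ ^ f) fun b hb => by
      obtain ⟨a, rfl⟩ := (fixed_iff_mem_range_intIncl K b).mp hb
      have h1 := pow_frobenius_sub_mem hA hp hσ f (intIncl K a)
      have h2 : a ^ p ^ f - a ∈ intIdeal K A := by
        rw [← Ideal.Quotient.eq, map_pow, ← hN, ← hAP, ← natCard_quotient]
        let _ : Field (𝓞 K ⧸ intIdeal K A) := Ideal.Quotient.field _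
        have := (intIdeal K A).finiteQuotientOfFreeOfNeBot (GlobalUnits.intIdeal_ne_bot K hA hp)
        let _ := Fintype.ofFinite (𝓞 K ⧸ intIdeal K A)
        rw [Nat.card_eq_fintype_card, FiniteField.pow_card]
      rw [intIdeal, Ideal.mem_comap, map_sub, map_pow] at h2
      have h3 := add_mem h1 h2
      rwa [sub_add_sub_cancel] at h3
  have := (Subgroup.mul_mem_cancel_right _ hτ).mp (hI p A hp hA hAP hτI)
  exact this

/-- Over a prime unramified in `ρ` Frobenius elements have conjugate images. -/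
theorem IsFrobOver.exists_conj {ρ : GalQ →* GF3} {P : Ideal (𝓞 K)} {g g' : GalQ}
    (h : IsFrobOver K P g) (h' : IsFrobOver K P g')
    (hI : ∀ (p : ℕ) (A : ValuationSubring Qbar), p.Prime → A.LiesOverPrime p →
      intIdeal K A = P → ∀ τ ∈ A.inertiaSubgroupIn ℚ, ρ τ = 1) :
    ∃ t ∈ K.fixingSubgroup, ρ g' = ρ t * ρ g * (ρ t)⁻¹ := by
  obtain ⟨p, f, A, σ, hp, hA, hσ, hAP, hN, rfl⟩ := h
  obtain ⟨p', f', B, σ', hp', hB, hσ', hBP, hN', rfl⟩ := h'
  have hP0 : (intIdeal K A).IsMaximal := intIdeal_isMaximal K hA hp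
  have hf : f ≠ 0 := by
    rintro rfl
    rw [pow_zero, Ideal.absNorm_eq_one_iff, ← hAP] at hN
    exact hP0.ne_top hN
  have hpp : p' = p := by
    have hd : p ∣ p' ^ f' := by rw [← hN', hN]; exact dvd_pow_self p hf
    exact ((Nat.prime_dvd_prime_iff_eq hp hp').mp (hp.dvd_of_dvd_pow hd)).symm
  subst hpp
  have hff : f' = f := Nat.pow_right_injective hp.two_le (hN'.symm.trans hN)
  subst hff
  have hplace : GlobalUnits.placeBelow K hA hp = GlobalUnits.placeBelow K hB hp :=
    IsDedekindDomain.HeightOneSpectrum.ext (hAP.trans hBP.symm)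
  obtain ⟨t, ht, rfl⟩ := (GlobalUnits.placeBelow_eq_iff K hA hp hB hp).mp hplace
  refine ⟨t, ht, ?_⟩
  have hIB : ∀ τ ∈ (t • A).inertiaSubgroupIn ℚ, ρ τ = 1 := hI _ _ hp hB hBP
  have := map_frobenius_eq ρ hIB hσ' (isFrobeniusAt_conj hA hp hσ t)
  rw [map_pow, map_pow, this, ← map_pow, conj_pow, map_mul, map_mul, map_inv, map_pow]

/-- The trace of the lift is a class function. -/
theorem liftTrace_conj (Ψ : GF3 →* GL (Fin 2) (ℤ√(-2))) (t g : GF3) :
    liftTrace Ψ (t * g * t⁻¹) = liftTrace Ψ g := by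
  simp only [liftTrace, map_mul, map_inv, Units.val_mul]
  rw [Matrix.trace_mul_cycle, ← Units.val_mul, inv_mul_cancel, Units.val_one, one_mul]

/-- The trace of the lift at a Frobenius element depends only on the prime. -/
theorem IsFrobOver.liftTrace_eq {ρ : GalQ →* GF3} (Ψ : GF3 →* GL (Fin 2) (ℤ√(-2)))
    {P : Ideal (𝓞 K)} {g g' : GalQ} (h : IsFrobOver K P g) (h' : IsFrobOver K P g')
    (hI : ∀ (p : ℕ) (A : ValuationSubring Qbar), p.Prime → A.LiesOverPrime p →
      intIdeal K A = P → ∀ τ ∈ A.inertiaSubgroupIn ℚ, ρ τ = 1) :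
    liftTrace Ψ (ρ g') = liftTrace Ψ (ρ g) := by
  obtain ⟨t, -, e⟩ := h.exists_conj h' hI
  rw [e, liftTrace_conj]

/-- A prime over a degree `f` prime of a subfield whose Frobenius power fixes `K` has degree
`f` as well. -/
theorem absNorm_intIdeal_eq {F : Type*} [Field F] [NumberField F] (j : F →+* K)
    {A : ValuationSubring Qbar} {p f : ℕ} {σ : GalQ} (hp : p.Prime) (hA : A.LiesOverPrime p)
    (hσ : A.IsFrobeniusAt σ p) (hfix : σ ^ f ∈ K.fixingSubgroup)
    (hN : Ideal.absNorm ((intIdeal K A).comap (RingOfIntegers.mapRingHom j)) = p ^ f) :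
    Ideal.absNorm (intIdeal K A) = p ^ f := by
  have := intIdeal_isMaximal K hA hp
  let _ : Field (𝓞 K ⧸ intIdeal K A) := Ideal.Quotient.field _
  have hf : f ≠ 0 := by
    rintro rfl
    rw [pow_zero, Ideal.absNorm_eq_one_iff, Ideal.comap_eq_top_iff] at hN
    exact this.ne_top hN
  have hroot : ∀ y : 𝓞 K ⧸ intIdeal K A, y ^ p ^ f = y := fun y => by
    obtain ⟨a, rfl⟩ := Ideal.Quotient.mk_surjective y
    rw [← map_pow, Ideal.Quotient.eq, intIdeal, Ideal.mem_comap, map_sub, map_pow]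
    have h1 := pow_frobenius_sub_mem hA hp hσ f (intIncl K a)
    rw [(fixed_iff_mem_range_intIncl K _).mpr ⟨a, rfl⟩ _ hfix] at h1
    have h2 := neg_mem h1
    rwa [neg_sub] at h2
  classical
  set q := p ^ f
  have hq : 1 < q := Nat.one_lt_pow hf hp.one_lt
  set X' : Polynomial (𝓞 K ⧸ intIdeal K A) := Polynomial.X ^ q - Polynomial.X
  have hX0 : X' ≠ 0 := FiniteField.X_pow_card_sub_X_ne_zero _ hq
  have hdeg : X'.natDegree = q := FiniteField.X_pow_card_sub_X_natDegree_eq _ hq
  have hall : ∀ y, y ∈ X'.roots := fun y => by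
    rw [Polynomial.mem_roots hX0]
    simp [X', hroot y]
  have hfin : Finite (𝓞 K ⧸ intIdeal K A) :=
    Finite.of_injective (fun y => (⟨y, Multiset.mem_toFinset.mpr (hall y)⟩ : X'.roots.toFinset))
      fun a b h => congrArg Subtype.val h
  let _ := Fintype.ofFinite (𝓞 K ⧸ intIdeal K A)
  have hle : Nat.card (𝓞 K ⧸ intIdeal K A) ≤ q := by
    rw [Nat.card_eq_fintype_card]
    calc Fintype.card (𝓞 K ⧸ intIdeal K A) ≤ X'.roots.toFinset.card :=
          Finset.card_le_card fun y _ => Multiset.mem_toFinset.mpr (hall y)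
      _ ≤ Multiset.card X'.roots := Multiset.toFinset_card_le _
      _ ≤ q := hdeg ▸ Polynomial.card_roots' X'
  have hge : q ≤ Nat.card (𝓞 K ⧸ intIdeal K A) := by
    rw [← hN, Ideal.absNorm_apply, Submodule.cardQuot_apply]
    exact Nat.card_le_card_of_injective
      (Ideal.quotientMap (intIdeal K A) (RingOfIntegers.mapRingHom j) le_rfl)
      Ideal.quotientMap_injective
  rw [← natCard_quotient]
  exact le_antisymm hle hge

variable {ρ : GalQ →* GF3} (hρ : IsSupersingularRep ρ)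

include hρ

end Fermat.Agent.LT.GaloisData

end
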