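import Fermat.Agent.LT.GaloisData.Fields
import Mathlib.GroupTheory.SpecificGroups.Cyclic
import Mathlib.Analysis.Complex.Basic

/-!
# The character of order four and the trace table

`psi` is the character of the Galois group of `M` through the faithful character of the cyclic
group of order four. On the Galois group of `L` the trace of the lift is the trace of the induced
character; `psi` is trivial on inertia away from three and `L / K` is split at three.
-/

set_option autoImplicit false

noncomputable section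

open Fermat.Agent.GaloisBasics
open Fermat.Agent.LT.Final (GF3 quatI quatJ upperUni)

namespace Fermat.Agent.LT.GaloisData

/-- `i` as a unit. -/
def unitI : ℂˣ := Units.mk0 Complex.I Complex.I_ne_zero

theorem orderOf_unitI_dvd : orderOf unitI ∣ orderOf quatI := by
  rw [orderOf_quatI]
  exact orderOf_dvd_of_pow_eq_one (Units.ext (by simp [unitI, Complex.I_pow_four]))

theorem orderOf_quatI' :
    orderOf (⟨quatI, Subgroup.mem_zpowers quatI⟩ : cycFour) = orderOf quatI :=
  (Subgroup.orderOf_coe _).symm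

theorem forall_mem_zpowers_quatI (x : cycFour) :
    x ∈ Subgroup.zpowers (⟨quatI, Subgroup.mem_zpowers quatI⟩ : cycFour) := by
  obtain ⟨k, hk⟩ := exists_pow_eq_of_mem_cycFour x.2
  exact ⟨(k : ℕ), Subtype.ext (by simpa using hk)⟩

/-- The faithful character of the cyclic group of order four. -/
def chiFour : cycFour →* ℂˣ :=
  monoidHomOfForallMemZpowers forall_mem_zpowers_quatI
    (orderOf_unitI_dvd.trans (dvd_of_eq orderOf_quatI'.symm))

theorem chiFour_gen : chiFour ⟨quatI, Subgroup.mem_zpowers quatI⟩ = unitI :=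
  monoidHomOfForallMemZpowers_apply_gen _ _

theorem chiFour_pow {g : cycFour} {k : ℕ} (hk : quatI ^ k = (g : GF3)) : chiFour g = unitI ^ k := by
  rw [← chiFour_gen, ← map_pow]
  exact congrArg chiFour (Subtype.ext (by simpa using hk.symm))

theorem chiFour_pow_four (g : cycFour) : chiFour g ^ 4 = 1 := by
  rw [← map_pow, show g ^ 4 = 1 from Subtype.ext (by simpa using (cycFour_le g.2).2), map_one]

/-- `chiFour` sends `-1` to `-1`. -/
theorem chiFour_neg_one (h : (-1 : GF3) ∈ cycFour) : chiFour ⟨-1, h⟩ = -1 := by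
  rw [chiFour_pow (g := ⟨-1, h⟩) (k := 2) (show quatI ^ 2 = (-1 : GF3) by apply Units.ext; decide)]
  exact Units.ext (by simp [unitI, Complex.I_sq])

/-- On the cyclic group the trace of the lift is the trace of the induced character. -/
theorem liftTrace_chiFour {Ψ : GF3 →* GL (Fin 2) (ℤ√(-2))}
    (hΨ : ∀ g, Matrix.GeneralLinearGroup.map FLT.ExplicitLift.red (Ψ g) = g)
    (ι : ℤ√(-2) →+* ℂ) (g : cycFour) :
    ι (liftTrace Ψ g) = (chiFour g : ℂ) + ((chiFour g)⁻¹ : ℂˣ) := by
  obtain ⟨k, hk⟩ := exists_pow_eq_of_mem_cycFour g.2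
  rw [chiFour_pow hk, ← hk]
  fin_cases k
  · rw [show quatI ^ 0 = (1 : GF3) from pow_zero _, liftTrace_one, map_ofNat]
    norm_num
  · rw [show quatI ^ 1 = quatI from pow_one _, liftTrace_quaternion hΨ quatI_mem
      (by intro h; have := congrArg Units.val h; revert this; decide)
      (by intro h; have := congrArg Units.val h; revert this; decide), map_zero]
    simp [unitI, Units.val_inv_eq_inv_val]
  · rw [show quatI ^ 2 = (-1 : GF3) by apply Units.ext; decide, liftTrace_neg_one hΨ, map_neg,
      map_ofNat]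
    simp [unitI, Units.val_inv_eq_inv_val, Complex.I_sq]
    norm_num
  · rw [liftTrace_quaternion hΨ (pow_mem quatI_mem 3)
      (by intro h; have := congrArg Units.val h; revert this; decide)
      (by intro h; have := congrArg Units.val h; revert this; decide), map_zero]
    simp [unitI, Units.val_inv_eq_inv_val, pow_succ]

theorem sq_of_notMem_cycFour {g : GF3} (hg : g ∈ quatGroup) (hn : g ∉ cycFour) : g * g = -1 := by
  have hM := (inQuaternion_iff_mem g).mp hg
  have hall : ∀ M ∈ quatList, M = 1 ∨ M = -1 ∨ M * M = -1 := by decide +kernel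
  rcases hall _ hM with h | h | h
  · exact absurd (show g = 1 from Units.ext h) fun e => hn (e ▸ one_mem _)
  · refine absurd (show g = quatI ^ 2 from Units.ext ?_) fun e =>
      hn (e ▸ pow_mem (Subgroup.mem_zpowers quatI) 2)
    rw [h]
    decide
  · exact Units.ext h

/-- Conjugation by an element outside the cyclic group inverts the character. -/
theorem chiFour_conj {h : GF3} (hh : h ∈ quatGroup) (hn : h ∉ cycFour) (g : cycFour)
    (hmem : h * (g : GF3) * h⁻¹ ∈ cycFour) : chiFour ⟨_, hmem⟩ = (chiFour g)⁻¹ := by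
  rcases quatGroup_cases hh with h' | ⟨-, h'⟩
  · exact absurd h' hn
  obtain ⟨k, hk⟩ := exists_pow_eq_of_mem_cycFour g.2
  rw [← map_inv]
  refine congrArg chiFour (Subtype.ext ?_)
  show h * (g : GF3) * h⁻¹ = (g : GF3)⁻¹
  rw [← hk, ← conj_pow, h', inv_pow]

variable {ρ : GalQ →* GF3} (hρ : IsSupersingularRep ρ)

include hρ

/-- The character of order four of the Galois group of `M`. -/
def psi : (quarticField ρ).fixingSubgroup →* ℂˣ :=
  chiFour.comp ((ρ.comp (quarticField ρ).fixingSubgroup.subtype).codRestrict cycFour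
    fun g => (mem_fixingSubgroup_fixH hρ.continuous).mp g.2)

/-- `psi` is `chiFour` composed with `ρ`. -/
theorem psi_apply (g : (quarticField ρ).fixingSubgroup) :
    psi hρ g = chiFour ⟨ρ (g : GalQ), (mem_fixingSubgroup_fixH hρ.continuous).mp g.2⟩ := rfl

/-- `psi` factors through `ρ`. -/
theorem psi_congr {g h : (quarticField ρ).fixingSubgroup} (e : ρ (g : GalQ) = ρ (h : GalQ)) :
    psi hρ g = psi hρ h := by
  rw [psi_apply, psi_apply]
  exact congrArg chiFour (Subtype.ext e)

theorem psi_eq_one {g : (quarticField ρ).fixingSubgroup} (e : ρ (g : GalQ) = 1) :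
    psi hρ g = 1 :=
  (psi_congr hρ (h := 1) (by rw [e]; exact (map_one ρ).symm)).trans (map_one _)

/-- `psi` is locally constant. -/
theorem isLocallyConstant_psi : IsLocallyConstant (psi hρ) := by
  refine IsLocallyConstant.iff_exists_open _ |>.mpr fun g =>
    ⟨{h | ρ (h : GalQ) = ρ (g : GalQ)}, ?_, rfl, fun h hh => psi_congr hρ hh⟩
  exact (isOpen_discrete {ρ (g : GalQ)}).preimage (hρ.continuous.comp continuous_subtype_val)

/-- `psi` takes fourth roots of unity as values. -/
theorem psi_pow_four (g : (quarticField ρ).fixingSubgroup) : psi hρ g ^ 4 = 1 := by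
  rw [psi_apply]
  exact chiFour_pow_four _

/-- Off `M` the square of an element of the Galois group of `L` has `psi = -1`. -/
theorem psi_sq_of_notMem {g : GalQ} (hg : g ∈ (cubicField ρ).fixingSubgroup)
    (hn : g ∉ (quarticField ρ).fixingSubgroup) :
    ∃ h : g * g ∈ (quarticField ρ).fixingSubgroup, psi hρ ⟨g * g, h⟩ = -1 := by
  rw [mem_fixingSubgroup_fixH hρ.continuous] at hg hn
  have h1 : ρ (g * g) = -1 := by rw [map_mul, sq_of_notMem_cycFour hg hn]
  have h : (-1 : GF3) ∈ cycFour := by
    rw [show (-1 : GF3) = quatI ^ 2 by apply Units.ext; decide]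
    exact pow_mem (Subgroup.mem_zpowers _) 2
  refine ⟨(mem_fixingSubgroup_fixH hρ.continuous).mpr (h1 ▸ h), ?_⟩
  rw [psi_apply]
  exact (congrArg chiFour (Subtype.ext h1)).trans (chiFour_neg_one h)

/-- Conjugation by the Galois group of `L` outside `M` inverts `psi`. -/
theorem psi_conj {h : GalQ} (hh : h ∈ (cubicField ρ).fixingSubgroup)
    (hn : h ∉ (quarticField ρ).fixingSubgroup) (g : (quarticField ρ).fixingSubgroup) :
    ∃ hm : h * (g : GalQ) * h⁻¹ ∈ (quarticField ρ).fixingSubgroup,
      psi hρ ⟨_, hm⟩ = (psi hρ g)⁻¹ := by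
  rw [mem_fixingSubgroup_fixH hρ.continuous] at hh hn
  have hg : ρ (g : GalQ) ∈ cycFour := (mem_fixingSubgroup_fixH hρ.continuous).mp g.2
  rcases quatGroup_cases hh with h' | ⟨-, h'⟩
  · exact absurd h' hn
  obtain ⟨k, hk⟩ := exists_pow_eq_of_mem_cycFour hg
  have hm : ρ h * ρ (g : GalQ) * (ρ h)⁻¹ ∈ cycFour := by
    rw [← hk, ← conj_pow, h']
    exact pow_mem (inv_mem (Subgroup.mem_zpowers _)) _
  refine ⟨(mem_fixingSubgroup_fixH hρ.continuous).mpr (by rwa [map_mul, map_mul, map_inv]), ?_⟩
  rw [psi_apply, psi_apply, ← chiFour_conj hh hn ⟨ρ (g : GalQ), hg⟩ hm]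
  exact congrArg chiFour (Subtype.ext (by simp))

/-! ### The trace table -/

variable {Ψ : GF3 →* GL (Fin 2) (ℤ√(-2))}
  (hΨ : ∀ g, Matrix.GeneralLinearGroup.map FLT.ExplicitLift.red (Ψ g) = g)

include hΨ

/-- On the Galois group of `M` the trace of the lift is `psi + psi⁻¹`. -/
theorem liftTrace_psi (ι : ℤ√(-2) →+* ℂ) (g : (quarticField ρ).fixingSubgroup) :
    ι (liftTrace Ψ (ρ (g : GalQ))) = (psi hρ g : ℂ) + ((psi hρ g)⁻¹ : ℂˣ) := by
  rw [psi_apply]
  exact liftTrace_chiFour hΨ ι ⟨ρ (g : GalQ), (mem_fixingSubgroup_fixH hρ.continuous).mp g.2⟩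

/-- Off the Galois group of `M` the trace of the lift vanishes. -/
theorem liftTrace_off_quartic {g : GalQ} (hg : g ∈ (cubicField ρ).fixingSubgroup)
    (hn : g ∉ (quarticField ρ).fixingSubgroup) : liftTrace Ψ (ρ g) = 0 := by
  rw [mem_fixingSubgroup_fixH hρ.continuous] at hg hn
  refine liftTrace_quaternion hΨ hg (fun e => hn (e ▸ one_mem _)) fun e => hn ?_
  rw [e, show (-1 : GF3) = quatI ^ 2 by apply Units.ext; decide]
  exact pow_mem (Subgroup.mem_zpowers _) 2

omit hΨ

/-! ### Ramification -/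

variable {q : ℕ} {A : ValuationSubring Qbar}

/-- Inertia away from three meets the Galois group of `L` in the kernel of `ρ`. -/
theorem rho_inertia_eq_one (hq : q.Prime) (h3 : q ≠ 3) (hA : A.LiesOverPrime q) {τ : GalQ}
    (hτ : τ ∈ A.inertiaSubgroupIn ℚ) (hL : τ ∈ (cubicField ρ).fixingSubgroup) : ρ τ = 1 := by
  have h4 : ρ τ ^ 4 = 1 := ((mem_fixingSubgroup_fixH hρ.continuous).mp hL).2
  have h3' := hρ.tame q hq h3 A hA τ hτ
  rwa [pow_succ, h3', one_mul] at h4

/-- `psi` is unramified outside three. -/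
theorem psi_inertia (hq : q.Prime) (h3 : q ≠ 3) (hA : A.LiesOverPrime q)
    (g : (quarticField ρ).fixingSubgroup) (hg : (g : GalQ) ∈ A.inertiaSubgroupIn ℚ) :
    psi hρ g = 1 :=
  psi_eq_one hρ (rho_inertia_eq_one hρ hq h3 hA hg
    (IntermediateField.fixingSubgroup_le cubicField_le_quarticField g.2))

/-- The places over three split completely in `L / K`. -/
theorem decomposition_three_mem (hA : A.LiesOverPrime 3) {g : GalQ}
    (hD : g ∈ A.decompositionSubgroup ℚ) (hK : g ∈ (eisSub ρ).fixingSubgroup) :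
    g ∈ (cubicField ρ).fixingSubgroup :=
  (mem_fixingSubgroup_fixH hρ.continuous).mpr
    (hρ.decomposition A hA g hD ((mem_fixingSubgroup_fixH hρ.continuous).mp hK))

/-- The inverse of the cubic generator, and its powers, move every place over three. -/
theorem cycleLift_notMem_decomposition (hA : A.LiesOverPrime 3) {g : GalQ}
    (hg : g ∈ (cubicField ρ).fixingSubgroup) {i : ℕ} (hi : ¬ 3 ∣ i) :
    g * cycleLift hρ ^ i ∉ A.decompositionSubgroup ℚ := by
  intro hD
  have hgQ : ρ g ∈ quatGroup := (mem_fixingSubgroup_fixH hρ.continuous).mp hg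
  have hup : upperUni (1 : ZMod 3) ^ i ∈ slGroup := pow_mem (upperUni_mem 1) i
  have hK : g * cycleLift hρ ^ i ∈ (eisSub ρ).fixingSubgroup := by
    rw [mem_fixingSubgroup_fixH hρ.continuous, map_mul, map_pow, rho_cycleLift]
    exact mul_mem (quatGroup_le hgQ) hup
  have h := (mem_fixingSubgroup_fixH hρ.continuous).mp (decomposition_three_mem hρ hA hD hK)
  rw [map_mul, map_pow, rho_cycleLift, Subgroup.mul_mem_cancel_left _ hgQ] at h
  have hsmall : ∀ j : Fin 3, upperUni (1 : ZMod 3) ^ (j : ℕ) ∈ quatGroup → (j : ℕ) = 0 := by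
    simp only [mem_quatGroup, inQuaternion_iff_mem, Units.val_pow_eq_pow_val]
    decide
  have h3 : upperUni (1 : ZMod 3) ^ 3 = 1 := by apply Units.ext; decide
  rw [pow_eq_pow_mod i h3] at h
  exact hi (Nat.dvd_of_mod_eq_zero (hsmall ⟨i % 3, Nat.mod_lt _ (by norm_num)⟩ h))

/-- The inertia group at three is not contained in the Galois group of `K`. -/
theorem exists_inertia_three_notMem (hA : A.LiesOverPrime 3) :
    ∃ τ ∈ A.inertiaSubgroupIn ℚ, τ ∉ (eisSub ρ).fixingSubgroup := by
  obtain ⟨τ, hτ, h8⟩ := hρ.inertia A hA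
  refine ⟨τ, hτ, fun h => ?_⟩
  have hdet := (mem_fixingSubgroup_fixH hρ.continuous).mp h
  have h4 := (hρ.decomposition A hA τ (inertiaSubgroupIn_le_decompositionSubgroup hτ) hdet).2
  have := orderOf_dvd_of_pow_eq_one h4
  rw [h8] at this
  omega

end Fermat.Agent.LT.GaloisData

end
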