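import Fermat.Agent.LT.GaloisData.Group
import Fermat.Agent.LT.Setup.Contracts
import Fermat.Agent.GaloisBasics.Finite
import Mathlib.FieldTheory.Galois.Infinite
import Mathlib.LinearAlgebra.Matrix.GeneralLinearGroup.Card
import Mathlib.NumberTheory.NumberField.Cyclotomic.Embeddings

/-!
# The fields of the cubic descent

For a supersingular `ρ` the preimages of `SL₂(𝔽₃)`, of the quaternion group and of a cyclic group
of order four cut out `K = ℚ(ζ₃)`, the cubic extension `L / K`, Galois over `ℚ`, and the quadratic
extension `M / L`. The generator `cubicAut` of `Gal(L / K)` has fixed field the image of `EisField`.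
-/

set_option autoImplicit false

noncomputable section

open NumberField
open Fermat.Agent.GaloisBasics
open Fermat.Agent.LT.Final (GF3 quatI upperUni InQuaternion)

namespace Fermat.Agent.LT.GaloisData

/-- The field fixed by the preimage of a subgroup. -/
def fixH (ρ : GalQ →* GF3) (H : Subgroup GF3) : IntermediateField ℚ Qbar :=
  IntermediateField.fixedField (H.comap ρ)

/-- `ℚ(ζ₃)` inside `ℚ̄`. -/
abbrev eisSub (ρ : GalQ →* GF3) : IntermediateField ℚ Qbar := fixH ρ slGroup

/-- The field `L`. -/
abbrev cubicField (ρ : GalQ →* GF3) : IntermediateField ℚ Qbar := fixH ρ quatGroup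

/-- The field `M`. -/
abbrev quarticField (ρ : GalQ →* GF3) : IntermediateField ℚ Qbar := fixH ρ cycFour

variable {ρ : GalQ →* GF3}

theorem isOpen_comap (hc : Continuous ρ) (H : Subgroup GF3) :
    IsOpen ((H.comap ρ : Subgroup GalQ) : Set GalQ) :=
  (isOpen_discrete (H : Set GF3)).preimage hc

/-- An element lies in `fixH ρ H` iff it is fixed by the preimage of `H`. -/
theorem mem_fixH {H : Subgroup GF3} {x : Qbar} :
    x ∈ fixH ρ H ↔ ∀ σ : GalQ, ρ σ ∈ H → σ x = x := by
  rw [fixH, IntermediateField.mem_fixedField_iff]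
  exact Iff.rfl

theorem fixingSubgroup_fixH (hc : Continuous ρ) (H : Subgroup GF3) :
    (fixH ρ H).fixingSubgroup = H.comap ρ :=
  InfiniteGalois.fixingSubgroup_fixedField
    ⟨H.comap ρ, Subgroup.isClosed_of_isOpen _ (isOpen_comap hc H)⟩

/-- The Galois group of the field cut out by `H` is the preimage of `H`. -/
theorem mem_fixingSubgroup_fixH (hc : Continuous ρ) {H : Subgroup GF3} {σ : GalQ} :
    σ ∈ (fixH ρ H).fixingSubgroup ↔ ρ σ ∈ H := by
  rw [fixingSubgroup_fixH hc]
  rfl

/-- `fixH ρ H` is finite over `ℚ` for continuous `ρ`. -/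
theorem finiteDimensional_fixH (hc : Continuous ρ) (H : Subgroup GF3) :
    FiniteDimensional ℚ (fixH ρ H) := by
  refine (InfiniteGalois.isOpen_iff_finite (fixH ρ H)).mp ?_
  show IsOpen ((fixH ρ H).fixingSubgroup : Set GalQ)
  rw [fixingSubgroup_fixH hc]
  exact isOpen_comap hc H

theorem finrank_fixH (hc : Continuous ρ) (hs : Function.Surjective ρ) (H : Subgroup GF3) :
    Module.finrank ℚ (fixH ρ H) = H.index := by
  rw [IntermediateField.finrank_eq_fixingSubgroup_index, fixingSubgroup_fixH hc,
    Subgroup.index_comap_of_surjective _ hs]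

theorem fixH_le {H H' : Subgroup GF3} (h : H ≤ H') : fixH ρ H' ≤ fixH ρ H := fun _x hx =>
  mem_fixH.mpr fun σ hσ => mem_fixH.mp hx σ (h hσ)

/-- Normal subgroups cut out Galois fields. -/
theorem isGalois_fixH (hc : Continuous ρ) (H : Subgroup GF3) [H.Normal] :
    IsGalois ℚ (fixH ρ H) := by
  refine (InfiniteGalois.normal_iff_isGalois _).mp ?_
  rw [fixingSubgroup_fixH hc]
  infer_instance

theorem card_GF3 : Nat.card GF3 = 48 := by
  rw [Matrix.card_GL_field]
  simp [Fin.prod_univ_two, ZMod.card]

theorem card_quatGroup : Nat.card quatGroup = 8 := by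
  have hbij : Function.Bijective (fun g : quatGroup =>
      (⟨((g : GF3) : Matrix (Fin 2) (Fin 2) (ZMod 3)),
        List.mem_toFinset.mpr ((inQuaternion_iff_mem g.1).mp g.2)⟩ : {M // M ∈ quatList.toFinset})) := by
    refine ⟨fun a b h => Subtype.ext (Units.ext (congrArg Subtype.val h)), fun M => ?_⟩
    have hM : M.1 ∈ quatList := List.mem_toFinset.mp M.2
    have hdet : M.1.det ≠ 0 := by
      have h : ∀ X ∈ quatList, X.det ≠ 0 := by decide +kernel
      exact h _ hM
    exact ⟨⟨Matrix.GeneralLinearGroup.mkOfDetNeZero M.1 hdet,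
      (inQuaternion_iff_mem _).mpr hM⟩, rfl⟩
  rw [Nat.card_congr (Equiv.ofBijective _ hbij), Nat.card_eq_fintype_card, Fintype.card_coe]
  decide +kernel

theorem index_quatGroup : quatGroup.index = 6 := by
  have h := quatGroup.index_mul_card
  rw [card_quatGroup, card_GF3] at h
  omega

theorem index_slGroup : slGroup.index = 2 := by
  have hsurj : Function.Surjective
      (Matrix.GeneralLinearGroup.det : GF3 →* (ZMod 3)ˣ) := fun u => by
    refine ⟨Matrix.GeneralLinearGroup.mkOfDetNeZero !![(u : ZMod 3), 0; 0, 1] ?_, Units.ext ?_⟩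
    · simp
    · simp [Matrix.GeneralLinearGroup.val_det_apply]
  rw [slGroup, Subgroup.index_ker, MonoidHom.range_eq_top.mpr hsurj, Subgroup.card_top,
    Nat.card_eq_fintype_card, ZMod.card_units_eq_totient, Nat.totient_prime Nat.prime_three]

theorem finrank_eisSub (hc : Continuous ρ) (hs : Function.Surjective ρ) :
    Module.finrank ℚ (eisSub ρ) = 2 :=
  (finrank_fixH hc hs _).trans index_slGroup

/-- The cubic field has degree six over `ℚ` when `ρ` is surjective. -/
theorem finrank_cubicField (hc : Continuous ρ) (hs : Function.Surjective ρ) :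
    Module.finrank ℚ (cubicField ρ) = 6 :=
  (finrank_fixH hc hs _).trans index_quatGroup

/-- The Eisenstein field lies in the cubic field. -/
theorem eisSub_le_cubicField : eisSub ρ ≤ cubicField ρ := fixH_le quatGroup_le

/-- The cubic field lies in the quartic field. -/
theorem cubicField_le_quarticField : cubicField ρ ≤ quarticField ρ := fixH_le cycFour_le

/-! ### The embedding of `EisField` -/

/-- The Eisenstein field is the cyclotomic field of third roots of unity. -/
theorem isCyclotomicExtension_eisField : IsCyclotomicExtension {3} ℚ EisField :=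
  CyclotomicField.isCyclotomicExtension 3 ℚ

/-- An embedding of `EisField` in `ℚ̄`. -/
def eisToQbar : EisField →ₐ[ℚ] Qbar := IsAlgClosed.lift

variable (hρ : IsSupersingularRep ρ)

include hρ

theorem eisToQbar_mem (x : EisField) : eisToQbar x ∈ eisSub ρ := by
  refine mem_fixH.mpr fun σ hσ => ?_
  have := isCyclotomicExtension_eisField
  have hζ := IsCyclotomicExtension.zeta_spec 3 ℚ EisField
  suffices h : (σ : Qbar →ₐ[ℚ] Qbar).comp eisToQbar = eisToQbar from DFunLike.congr_fun h x
  refine (hζ.powerBasis ℚ).algHom_ext ?_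
  rw [IsPrimitiveRoot.powerBasis_gen]
  show σ (eisToQbar (IsCyclotomicExtension.zeta 3 ℚ EisField)) = _
  set z := eisToQbar (IsCyclotomicExtension.zeta 3 ℚ EisField) with hz
  have hz3 : z ^ 3 = 1 := by rw [hz, ← map_pow, hζ.pow_eq_one, map_one]
  have hspec := modularCyclotomicCharacter.spec (L := Qbar)
    (IsAlgClosed.card_rootsOfUnity_eq Qbar 3) (σ : Qbar ≃+* Qbar)
    (rootsOfUnity.mkOfPowEq z hz3).2
  have hone : WeierstrassCurve.modThreeCyclotomicChar σ = 1 := (hρ.det σ).symm.trans hσ
  rw [WeierstrassCurve.modThreeCyclotomicChar_apply] at hone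
  rw [hone, Units.val_one, ZMod.val_one, pow_one] at hspec
  exact hspec

/-- The embedding of the Eisenstein field has image `eisSub ρ`. -/
theorem eisToQbar_fieldRange : (eisToQbar).fieldRange = eisSub ρ := by
  have := finiteDimensional_fixH hρ.continuous slGroup
  have := isCyclotomicExtension_eisField
  refine IntermediateField.eq_of_le_of_finrank_eq ?_ ?_
  · rintro _ ⟨x, rfl⟩
    exact eisToQbar_mem hρ x
  · rw [finrank_eisSub hρ.continuous hρ.surjective,
      ← eisToQbar.equivFieldRange.toLinearEquiv.finrank_eq,
      IsCyclotomicExtension.finrank (n := 3) EisField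
        (Polynomial.cyclotomic.irreducible_rat (by norm_num)),
      Nat.totient_prime Nat.prime_three]

/-- The embedding of `EisField` in `L`. -/
def eisToCubic : EisField →ₐ[ℚ] cubicField ρ :=
  eisToQbar.codRestrict (cubicField ρ).toSubalgebra fun x =>
    eisSub_le_cubicField (eisToQbar_mem hρ x)

/-- An element of `L` comes from `EisField` iff it lies in `K`. -/
theorem exists_eisToCubic_iff (x : cubicField ρ) :
    (∃ y, eisToCubic hρ y = x) ↔ (x : Qbar) ∈ eisSub ρ := by
  rw [← eisToQbar_fieldRange hρ]
  constructor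
  · rintro ⟨y, rfl⟩
    exact ⟨y, rfl⟩
  · rintro ⟨y, hy⟩
    exact ⟨y, Subtype.ext hy⟩

/-- `L` is totally complex. -/
theorem isTotallyComplex_cubicField : IsTotallyComplex (cubicField ρ) := by
  have := isCyclotomicExtension_eisField
  have : IsTotallyComplex EisField :=
    IsCyclotomicExtension.Rat.isTotallyComplex (n := 3) EisField (by norm_num)
  let : Algebra EisField (cubicField ρ) := (eisToCubic hρ).toRingHom.toAlgebra
  exact isTotallyComplex_of_algebra EisField (cubicField ρ)

/-- The quartic field is totally complex. -/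
theorem isTotallyComplex_quarticField : IsTotallyComplex (quarticField ρ) := by
  have := isTotallyComplex_cubicField hρ
  let : Algebra (cubicField ρ) (quarticField ρ) :=
    (IntermediateField.inclusion (cubicField_le_quarticField (ρ := ρ))).toRingHom.toAlgebra
  exact isTotallyComplex_of_algebra (cubicField ρ) (quarticField ρ)

/-- The cubic field is a number field. -/
theorem numberField_cubicField : NumberField (cubicField ρ) :=
  haveI := finiteDimensional_fixH hρ.continuous quatGroup
  numberField_of_finiteDimensional _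

/-- The quartic field is a number field. -/
theorem numberField_quarticField : NumberField (quarticField ρ) :=
  haveI := finiteDimensional_fixH hρ.continuous cycFour
  numberField_of_finiteDimensional _

/-! ### The generator of `Gal(L / K)` -/

/-- A lift of `upperUni 1` to the Galois group. -/
def cycleLift : GalQ := (hρ.surjective (upperUni 1)).choose

/-- `cycleLift` maps to the upper unipotent under `ρ`. -/
theorem rho_cycleLift : ρ (cycleLift hρ) = upperUni 1 :=
  (hρ.surjective (upperUni 1)).choose_spec

/-- The generator of `Gal(L / K)`. -/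
def cubicAut : cubicField ρ ≃+* cubicField ρ :=
  haveI := isGalois_fixH hρ.continuous quatGroup
  (restrictK (cubicField ρ) (cycleLift hρ)).toRingEquiv

/-- `cubicAut` is the restriction of `cycleLift`. -/
theorem coe_cubicAut (x : cubicField ρ) : ((cubicAut hρ x : cubicField ρ) : Qbar) = cycleLift hρ x :=
  haveI := isGalois_fixH hρ.continuous quatGroup
  coe_restrictK_apply (cubicField ρ) (cycleLift hρ) x

theorem coe_cubicAut_pow (i : ℕ) (x : cubicField ρ) :
    (((cubicAut hρ ^ i) x : cubicField ρ) : Qbar) = (cycleLift hρ ^ i) (x : Qbar) := by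
  induction i with
  | zero => simp
  | succ i ih =>
    rw [pow_succ', pow_succ', RingAut.mul_apply, AlgEquiv.mul_apply, coe_cubicAut, ih]

/-- The generator has order dividing three. -/
theorem cubicAut_pow_three : cubicAut hρ ^ 3 = 1 := by
  refine RingEquiv.ext fun x => Subtype.ext ?_
  rw [coe_cubicAut_pow]
  refine mem_fixH.mp x.2 _ ?_
  rw [map_pow, rho_cycleLift]
  exact ⟨by rw [map_pow]; apply Units.ext; decide, by apply Units.ext; decide⟩

/-- The fixed elements of the generator are the elements of `EisField`. -/
theorem cubicAut_fixed_iff (x : cubicField ρ) :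
    cubicAut hρ x = x ↔ ∃ y, eisToCubic hρ y = x := by
  rw [exists_eisToCubic_iff, Subtype.ext_iff, coe_cubicAut]
  constructor
  · intro h
    refine mem_fixH.mpr fun σ hσ => ?_
    obtain ⟨k, hk, -⟩ := existsUnique_upperUni hσ
    have hfix : ∀ i : ℕ, (cycleLift hρ ^ i) (x : Qbar) = x := fun i => by
      induction i with
      | zero => simp
      | succ i ih => rw [pow_succ', AlgEquiv.mul_apply, ih, h]
    have hpow : ρ (cycleLift hρ ^ k.val) = upperUni k := by
      rw [map_pow, rho_cycleLift]
      apply Units.ext
      clear hk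
      revert k
      decide
    have h2 := mem_fixH.mp x.2 (σ * cycleLift hρ ^ k.val) (by rwa [map_mul, hpow])
    rwa [AlgEquiv.mul_apply, hfix] at h2
  · intro h
    exact mem_fixH.mp h _ (by rw [rho_cycleLift]; exact upperUni_mem 1)

/-- The generator is nontrivial. -/
theorem cubicAut_ne_one : cubicAut hρ ≠ 1 := by
  intro h
  have hle : cubicField ρ ≤ eisSub ρ := fun x hx =>
    (exists_eisToCubic_iff hρ ⟨x, hx⟩).mp
      ((cubicAut_fixed_iff hρ ⟨x, hx⟩).mp (by rw [h]; rfl))
  have e : cubicField ρ = eisSub ρ := le_antisymm hle eisSub_le_cubicField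
  have h6 := finrank_cubicField hρ.continuous hρ.surjective
  rw [e, finrank_eisSub hρ.continuous hρ.surjective] at h6
  omega

end Fermat.Agent.LT.GaloisData

end
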