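import Fermat.Agent.LT.Final.Galois
import Fermat.Agent.LT.GaloisData.Lift
import Mathlib.GroupTheory.OrderOfElement

/-!
# Group theory of `GL₂(𝔽₃)` for the cubic descent

The quaternion group, the cyclic quotient of order three of `SL₂(𝔽₃)`, the cyclic group of order
four and its faithful character, and the traces of the lift on each class.
-/

set_option autoImplicit false

noncomputable section

open Matrix
open Fermat.Agent.LT.Final (GF3 quatI quatJ upperUni reflEl InQuaternion)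

namespace Fermat.Agent.LT.GaloisData

/-- To prove a property of all of `GL₂(𝔽₃)` it suffices to check the four entries. -/
theorem forall_gf3 {P : Matrix (Fin 2) (Fin 2) (ZMod 3) → Prop}
    (h : ∀ a b c d : ZMod 3, a * d - b * c ≠ 0 → P !![a, b; c, d]) (g : GF3) :
    P (g : Matrix (Fin 2) (Fin 2) (ZMod 3)) := by
  have hne := (Matrix.GeneralLinearGroup.det g).ne_zero
  rw [Matrix.GeneralLinearGroup.val_det_apply, det_fin_two] at hne
  rw [Matrix.eta_fin_two (g : Matrix (Fin 2) (Fin 2) (ZMod 3))]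
  exact h _ _ _ _ hne

/-- The determinant of a unit is one iff that of its matrix is. -/
theorem det_eq_one_iff (g : GF3) :
    Matrix.GeneralLinearGroup.det g = 1 ↔ (g : Matrix (Fin 2) (Fin 2) (ZMod 3)).det = 1 := by
  rw [Units.ext_iff, Matrix.GeneralLinearGroup.val_det_apply, Units.val_one]

/-- The eight quaternions. -/
def quatList : List (Matrix (Fin 2) (Fin 2) (ZMod 3)) :=
  [!![1, 0; 0, 1], !![2, 0; 0, 2], !![0, 2; 1, 0], !![0, 1; 2, 0], !![1, 1; 1, 2], !![2, 2; 2, 1],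
    !![2, 1; 1, 1], !![1, 2; 2, 2]]

theorem quatList_iff : ∀ a b c d : ZMod 3, a * d - b * c ≠ 0 →
    (a * d - b * c = 1 ∧ !![a, b; c, d] ^ 4 = 1 ↔ !![a, b; c, d] ∈ quatList) := by
  decide +kernel

theorem quatList_mul : ∀ x ∈ quatList, ∀ y ∈ quatList, x * y ∈ quatList := by decide +kernel

/-- `InQuaternion` singles out the eight matrices of `quatList`. -/
theorem inQuaternion_iff_mem (g : GF3) :
    InQuaternion g ↔ (g : Matrix (Fin 2) (Fin 2) (ZMod 3)) ∈ quatList := by
  rw [InQuaternion, det_eq_one_iff, Units.ext_iff, Units.val_pow_eq_pow_val, Units.val_one]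
  refine forall_gf3 (P := fun M => M.det = 1 ∧ M ^ 4 = 1 ↔ M ∈ quatList) (fun a b c d h => ?_) g
  rw [det_fin_two_of]
  exact quatList_iff a b c d h

/-- The quaternion group. -/
def quatGroup : Subgroup GF3 where
  carrier := {g | InQuaternion g}
  one_mem' := ⟨map_one _, one_pow _⟩
  mul_mem' := fun {a b} ha hb => by
    simp only [Set.mem_ofPred_eq, inQuaternion_iff_mem, Units.val_mul] at *
    exact quatList_mul _ ha _ hb
  inv_mem' := fun {a} ha => ⟨by rw [map_inv, ha.1, inv_one], by rw [inv_pow, ha.2, inv_one]⟩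

/-- Membership in the quaternion group. -/
theorem mem_quatGroup {g : GF3} : g ∈ quatGroup ↔ InQuaternion g := Iff.rfl

/-- The quaternion group is normal. -/
instance quatGroup_normal : quatGroup.Normal where
  conj_mem n hn g := ⟨by
    rw [map_mul, map_mul, map_inv, hn.1, mul_one, mul_inv_cancel],
    by rw [conj_pow, hn.2, mul_one, mul_inv_cancel]⟩

/-- The kernel of the determinant. -/
def slGroup : Subgroup GF3 := (Matrix.GeneralLinearGroup.det (n := Fin 2) (R := ZMod 3)).ker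

theorem mem_slGroup {g : GF3} : g ∈ slGroup ↔ Matrix.GeneralLinearGroup.det g = 1 := Iff.rfl

instance slGroup_normal : slGroup.Normal := MonoidHom.normal_ker _

/-- The quaternion group lies in `SL₂(𝔽₃)`. -/
theorem quatGroup_le : quatGroup ≤ slGroup := fun _ hg => hg.1

/-- `quatI` is a quaternion. -/
theorem quatI_mem : quatI ∈ quatGroup := ⟨by apply Units.ext; decide, by apply Units.ext; decide⟩

/-- `quatJ` is a quaternion. -/
theorem quatJ_mem : quatJ ∈ quatGroup := ⟨by apply Units.ext; decide, by apply Units.ext; decide⟩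

/-- Unipotents have determinant one. -/
theorem upperUni_mem (x : ZMod 3) : upperUni x ∈ slGroup := by
  apply Units.ext; revert x; decide

theorem sl_coset_cases : ∀ a b c d : ZMod 3, a * d - b * c ≠ 0 → a * d - b * c = 1 →
    ∃! k : ZMod 3, !![a, b; c, d] * !![1, k; 0, 1] ∈ quatList := by
  intro a b c d
  revert a b c d
  unfold ExistsUnique
  decide +kernel

/-- `SL₂(𝔽₃) = Q₈ ⋊ ⟨upperUni 1⟩`. -/
theorem existsUnique_upperUni {g : GF3} (hg : g ∈ slGroup) :
    ∃! k : ZMod 3, g * upperUni k ∈ quatGroup := by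
  simp only [mem_quatGroup, inQuaternion_iff_mem, Units.val_mul]
  rw [mem_slGroup, det_eq_one_iff] at hg
  revert hg
  refine forall_gf3 (P := fun M => M.det = 1 →
    ∃! k : ZMod 3, M * (upperUni k : Matrix (Fin 2) (Fin 2) (ZMod 3)) ∈ quatList) ?_ g
  intro a b c d h h1
  rw [det_fin_two_of] at h1
  exact sl_coset_cases a b c d h h1

/-- The cyclic group of order four. -/
def cycFour : Subgroup GF3 := Subgroup.zpowers quatI

/-- `cycFour` lies in the quaternion group. -/
theorem cycFour_le : cycFour ≤ quatGroup := Subgroup.zpowers_le.mpr quatI_mem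

theorem quatI_pow_four : quatI ^ 4 = 1 := quatI_mem.2

/-- `quatI` has order four. -/
theorem orderOf_quatI : orderOf quatI = 4 := by
  refine orderOf_eq_prime_pow (p := 2) (n := 1) ?_ quatI_pow_four
  intro h
  have := congrArg Units.val h
  revert this
  decide

/-- The elements of `cycFour` are the four powers of `quatI`. -/
theorem exists_pow_eq_of_mem_cycFour {g : GF3} (hg : g ∈ cycFour) :
    ∃ k : Fin 4, quatI ^ (k : ℕ) = g := by
  obtain ⟨k, hk⟩ := (mem_powers_iff_mem_zpowers.mpr hg)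
  exact ⟨⟨k % 4, Nat.mod_lt _ (by norm_num)⟩, by
    rw [← hk]; exact (pow_eq_pow_mod k quatI_pow_four).symm⟩

theorem quat_cases : ∀ M ∈ quatList,
    ∃ k : Fin 4, M = !![0, -1; 1, 0] ^ (k : ℕ) ∨
      (M = !![0, -1; 1, 0] ^ (k : ℕ) * !![1, 1; 1, -1] ∧
        M * !![0, -1; 1, 0] = !![0, -1; 1, 0] ^ 3 * M) := by
  decide +kernel

/-- `Q₈ = C₄ ∪ C₄ j`, and elements outside `C₄` invert it. -/
theorem quatGroup_cases {g : GF3} (hg : g ∈ quatGroup) :
    g ∈ cycFour ∨ (g * quatJ⁻¹ ∈ cycFour ∧ g * quatI * g⁻¹ = quatI⁻¹) := by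
  rw [mem_quatGroup, inQuaternion_iff_mem] at hg
  have h : ∃ k : Fin 4, (g : Matrix (Fin 2) (Fin 2) (ZMod 3)) = !![0, -1; 1, 0] ^ (k : ℕ) ∨
      ((g : Matrix (Fin 2) (Fin 2) (ZMod 3)) = !![0, -1; 1, 0] ^ (k : ℕ) * !![1, 1; 1, -1] ∧
        (g : Matrix (Fin 2) (Fin 2) (ZMod 3)) * !![0, -1; 1, 0] =
          !![0, -1; 1, 0] ^ 3 * (g : Matrix (Fin 2) (Fin 2) (ZMod 3))) := by
    exact quat_cases _ hg
  obtain ⟨k, hk | ⟨hk, hk'⟩⟩ := h
  · left
    rw [show g = quatI ^ (k : ℕ) from Units.ext (by rw [hk, Units.val_pow_eq_pow_val]; rfl)]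
    exact pow_mem (Subgroup.mem_zpowers _) _
  · right
    refine ⟨?_, ?_⟩
    · rw [show g = quatI ^ (k : ℕ) * quatJ from Units.ext (by
        rw [hk, Units.val_mul, Units.val_pow_eq_pow_val]; rfl), mul_inv_cancel_right]
      exact pow_mem (Subgroup.mem_zpowers _) _
    · rw [show quatI⁻¹ = quatI ^ 3 from inv_eq_of_mul_eq_one_right (by
        rw [← pow_succ', quatI_pow_four]), mul_inv_eq_iff_eq_mul]
      exact Units.ext (by rw [Units.val_mul, Units.val_mul, Units.val_pow_eq_pow_val]; exact hk')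

/-- `quatJ` is not in `cycFour`. -/
theorem quatJ_notMem : quatJ ∉ cycFour := by
  intro h
  obtain ⟨k, hk⟩ := exists_pow_eq_of_mem_cycFour h
  have := congrArg Units.val hk
  rw [Units.val_pow_eq_pow_val] at this
  revert this k
  decide +kernel

section Trace

variable {Ψ : GF3 →* GL (Fin 2) (ℤ√(-2))}
  (hΨ : ∀ g, Matrix.GeneralLinearGroup.map FLT.ExplicitLift.red (Ψ g) = g)

/-- The trace of the lift. -/
def liftTrace (Ψ : GF3 →* GL (Fin 2) (ℤ√(-2))) (g : GF3) : ℤ√(-2) :=
  ((Ψ g : GL (Fin 2) (ℤ√(-2))) : Matrix (Fin 2) (Fin 2) (ℤ√(-2))).trace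

theorem smul_mat_injective {a b : ℤ√(-2)} {X : Matrix (Fin 2) (Fin 2) (ℤ√(-2))}
    (hX : ∀ c : ZMod 3, X.map FLT.ExplicitLift.red ≠ c • 1)
    (h : a • X = b • (1 : Matrix (Fin 2) (Fin 2) (ℤ√(-2)))) : a = 0 := by
  by_contra ha
  have h01 := congrFun (congrFun h 0) 1
  have h10 := congrFun (congrFun h 1) 0
  have h00 := congrFun (congrFun h 0) 0
  have h11 := congrFun (congrFun h 1) 1
  simp at h01 h10 h00 h11
  have e01 : X 0 1 = 0 := Fermat.Agent.LT.Final.zsqrtd_neg_two_mul_eq_zero h01 ha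
  have e10 : X 1 0 = 0 := Fermat.Agent.LT.Final.zsqrtd_neg_two_mul_eq_zero h10 ha
  have e11 : X 1 1 - X 0 0 = 0 := Fermat.Agent.LT.Final.zsqrtd_neg_two_mul_eq_zero
    (by rw [mul_sub, h00, h11, sub_self]) ha
  refine hX (FLT.ExplicitLift.red (X 0 0)) ?_
  ext i j
  fin_cases i <;> fin_cases j <;> simp [e01, e10, sub_eq_zero.mp e11]

include hΨ

/-- Reducing the lift `Ψ g` gives back `g`. -/
theorem map_lift (g : GF3) :
    (Ψ g : Matrix (Fin 2) (Fin 2) (ℤ√(-2))).map FLT.ExplicitLift.red =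
      (g : Matrix (Fin 2) (Fin 2) (ZMod 3)) :=
  congrArg Units.val (hΨ g)

omit hΨ in
/-- The lift of `1` has trace `2`. -/
theorem liftTrace_one : liftTrace Ψ 1 = 2 := by simp [liftTrace, map_one]

/-- The lift of `-1` has trace `-2`. -/
theorem liftTrace_neg_one : liftTrace Ψ (-1) = -2 := by
  rw [liftTrace, Fermat.Agent.LT.Final.lift_neg_one hΨ]
  simp

omit hΨ in
theorem scalar_cases {g : GF3} (h : ∃ c : ZMod 3, (g : Matrix (Fin 2) (Fin 2) (ZMod 3)) = c • 1) :
    g = 1 ∨ g = -1 := by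
  obtain ⟨c, hc⟩ := h
  have hne := (Matrix.GeneralLinearGroup.det g).ne_zero
  rw [Matrix.GeneralLinearGroup.val_det_apply, hc] at hne
  have : c = 1 ∨ c = -1 := by
    revert hne hc
    revert c
    intro c
    rcases (by revert c; decide : c = 0 ∨ c = 1 ∨ c = -1) with rfl | rfl | rfl
    · intro _ h; exact absurd (by simp) h
    · exact fun _ _ => Or.inl rfl
    · exact fun _ _ => Or.inr rfl
  rcases this with rfl | rfl
  · exact Or.inl (Units.ext (by rw [hc, one_smul, Units.val_one]))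
  · exact Or.inr (Units.ext (by rw [hc, neg_one_smul, Units.val_neg, Units.val_one]))

theorem sq_lift (g : GF3) :
    (Ψ g : Matrix (Fin 2) (Fin 2) (ℤ√(-2))) * Ψ g = liftTrace Ψ g • (Ψ g : Matrix (Fin 2) (Fin 2) (ℤ√(-2))) -
      (if Matrix.GeneralLinearGroup.det g = 1 then (1 : ℤ√(-2)) else -1) • 1 := by
  have h : ∀ A : Matrix (Fin 2) (Fin 2) (ℤ√(-2)), A * A = A.trace • A - A.det • 1 := fun A => by
    refine Matrix.ext fun i j => ?_
    fin_cases i <;> fin_cases j <;>
      simp [Matrix.mul_apply, Fin.sum_univ_two, det_fin_two, trace_fin_two] <;> ring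
  rw [h, Fermat.Agent.LT.Final.det_lift hΨ, liftTrace]

/-- A quaternion other than `±1` has trace `0`. -/
theorem liftTrace_quaternion {g : GF3} (hg : g ∈ quatGroup) (h1 : g ≠ 1) (h2 : g ≠ -1) :
    liftTrace Ψ g = 0 := by
  have hns : ∀ c : ZMod 3, (Ψ g : Matrix (Fin 2) (Fin 2) (ℤ√(-2))).map FLT.ExplicitLift.red ≠
      c • 1 := fun c hc => (scalar_cases ⟨c, (map_lift hΨ g).symm.trans hc⟩).elim h1 h2
  have hsq : g * g = -1 := by
    have hM := (inQuaternion_iff_mem g).mp hg
    have h : (g : Matrix (Fin 2) (Fin 2) (ZMod 3)) ≠ 1 → (g : Matrix (Fin 2) (Fin 2) (ZMod 3)) ≠ -1 →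
        (g : Matrix (Fin 2) (Fin 2) (ZMod 3)) * g = -1 := by
      have hall : ∀ M ∈ quatList, M ≠ 1 → M ≠ -1 → M * M = -1 := by decide +kernel
      exact hall _ hM
    exact Units.ext (h (fun e => h1 (Units.ext e)) (fun e => h2 (Units.ext e)))
  have h := sq_lift hΨ g
  rw [if_pos hg.1, ← Units.val_mul, ← map_mul, hsq, Fermat.Agent.LT.Final.lift_neg_one hΨ,
    Units.val_neg, Units.val_one, one_smul, sub_eq_add_neg, right_eq_add] at h
  exact smul_mat_injective hns (b := 0) (h.trans (zero_smul _ _).symm)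

omit hΨ in
/-- Outside `SL₂(𝔽₃)`, either `g² = 1` or `g⁴ = -1` with `g² ≠ 1`. -/
theorem nonsl_cases : ∀ a b c d : ZMod 3, a * d - b * c ≠ 0 → a * d - b * c ≠ 1 →
    !![a, b; c, d] ^ 2 = 1 ∨ (!![a, b; c, d] ^ 2 ≠ 1 ∧ !![a, b; c, d] ^ 4 = -1) := by
  decide +kernel

end Trace

end Fermat.Agent.LT.GaloisData

end
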