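import Fermat.Agent.FlatBound.InertiaField
import Fermat.Agent.LocalInertia.Tame

/-!
# The roots of the `3`-division polynomial at supersingular `3`

When `3 ∣ b₂` and `3 ∤ b₈` all roots have valuation `-1/4` and the ratios of two roots reduce to
fourth roots of unity, distinct for distinct roots. Hence a decomposition element fixing a root
has square fixing all of them, and inertia permutes the roots cyclically.
-/

set_option autoImplicit false

noncomputable section

open Fermat.Agent.GaloisBasics (Qbar GalQ)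
open Fermat.Agent.LocalInertia

namespace Fermat.Agent.LT.GaloisData

/-- `3x⁴ + b₂x³ + 3b₄x² + 3b₆x + b₈ = 0`. -/
def IsPsiThreeRoot (b₂ b₄ b₆ b₈ : ℤ) (x : Qbar) : Prop :=
  3 * x ^ 4 + (b₂ : Qbar) * x ^ 3 + 3 * (b₄ : Qbar) * x ^ 2 + 3 * (b₆ : Qbar) * x + (b₈ : Qbar) = 0

/-- Galois permutes the roots of the three-division polynomial. -/
theorem IsPsiThreeRoot.map {b₂ b₄ b₆ b₈ : ℤ} {x : Qbar} (h : IsPsiThreeRoot b₂ b₄ b₆ b₈ x)
    (σ : GalQ) : IsPsiThreeRoot b₂ b₄ b₆ b₈ (σ x) := by
  have := congrArg σ h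
  simp only [map_add, map_mul, map_pow, map_intCast, map_ofNat, map_zero] at this
  exact this

/-- Congruence modulo the maximal ideal. -/
def Cong (A : ValuationSubring Qbar) (a b : Qbar) : Prop := A.valuation (a - b) < 1

variable {A : ValuationSubring Qbar} {b₂ b₄ b₆ b₈ : ℤ} {x y z : Qbar}

/-- Congruence is symmetric. -/
theorem Cong.symm {a b : Qbar} (h : Cong A a b) : Cong A b a := by
  rw [Cong, ← A.valuation.map_neg, neg_sub]; exact h

/-- Congruence is transitive. -/
theorem Cong.trans {a b c : Qbar} (h : Cong A a b) (h' : Cong A b c) : Cong A a c := by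
  rw [Cong, show a - c = (a - b) + (b - c) by ring]
  exact A.valuation.map_add_lt h h'

theorem Cong.rfl' (a : Qbar) : Cong A a a := by simp [Cong]

/-- Congruence is preserved by negation. -/
theorem Cong.neg {a b : Qbar} (h : Cong A a b) : Cong A (-a) (-b) := by
  rw [Cong, show -a - -b = -(a - b) by ring, A.valuation.map_neg]; exact h

/-- Congruence of integral elements is preserved by multiplication. -/
theorem Cong.mul {a b c d : Qbar} (h : Cong A a b) (h' : Cong A c d)
    (ha : A.valuation a ≤ 1) (hd : A.valuation d ≤ 1) : Cong A (a * c) (b * d) := by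
  rw [Cong, show a * c - b * d = a * (c - d) + (a - b) * d by ring]
  refine A.valuation.map_add_lt ?_ ?_ <;> rw [map_mul]
  · exact lt_of_le_of_lt (mul_le_of_le_one_left' ha) h'
  · exact lt_of_le_of_lt (mul_le_of_le_one_right' hd) h

/-- The decomposition group preserves congruence. -/
theorem Cong.map {σ : GalQ} (hσ : σ ∈ A.decompositionSubgroup ℚ) {a b : Qbar} (h : Cong A a b) :
    Cong A (σ a) (σ b) := by
  rw [Cong, ← map_sub, valuation_apply hσ]; exact h

theorem sq_cong_cases {a c : Qbar} (h : Cong A (a ^ 2) (c ^ 2)) : Cong A a c ∨ Cong A a (-c) := by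
  by_contra hcon
  rw [not_or, Cong, Cong, not_lt, not_lt] at hcon
  have h1 : (1 : A.ValueGroup) ≤ A.valuation (a - c) * A.valuation (a - -c) :=
    one_le_mul hcon.1 hcon.2
  rw [← map_mul, show (a - c) * (a - -c) = a ^ 2 - c ^ 2 by ring] at h1
  exact not_lt.mpr h1 h

variable (hA : A.LiesOverPrime 3) (h₂ : (3 : ℤ) ∣ b₂) (h₈ : ¬ (3 : ℤ) ∣ b₈)

include hA in
theorem valuation_three_lt_one : A.valuation (3 : Qbar) < 1 := by
  simpa using FlatBound.valuation_natCast_prime_lt_one hA

theorem valuation_three_pos (A : ValuationSubring Qbar) : 0 < A.valuation (3 : Qbar) := by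
  simpa using FlatBound.valuation_natCast_prime_pos A Nat.prime_three

include hA h₈ in
theorem valuation_b₈ : A.valuation (b₈ : Qbar) = 1 := by
  have hcop : Nat.Coprime b₈.natAbs 3 := by
    rw [Nat.coprime_comm, Nat.prime_three.coprime_iff_not_dvd]
    exact fun h => h₈ (Int.natCast_dvd.mpr h)
  have h := valuation_natCast_of_coprime hA hcop
  rcases Int.natAbs_eq b₈ with e | e <;> rw [e] <;> push_cast <;>
    simpa [A.valuation.map_neg] using h

include h₂ in
theorem valuation_b₂ : A.valuation (b₂ : Qbar) ≤ A.valuation 3 := by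
  obtain ⟨c, rfl⟩ := h₂
  push_cast
  rw [map_mul]
  exact mul_le_of_le_one_right' (valuation_intCast_le_one A c)

include hA h₂ h₈ in
/-- The roots of the three-division polynomial are not integral at three. -/
theorem one_lt_valuation_root (hx : IsPsiThreeRoot b₂ b₄ b₆ b₈ x) : 1 < A.valuation x := by
  by_contra hle
  rw [not_lt] at hle
  have h3 := valuation_three_lt_one hA
  have hlt : A.valuation ((b₈ : Qbar)) < 1 := by
    rw [show (b₈ : Qbar) = -(3 * (x ^ 4 + b₄ * x ^ 2 + b₆ * x) + b₂ * x ^ 3) by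
      unfold IsPsiThreeRoot at hx; linear_combination hx, A.valuation.map_neg]
    refine A.valuation.map_add_lt ?_ ?_ <;> rw [map_mul]
    · refine lt_of_le_of_lt (mul_le_of_le_one_right' ?_) h3
      refine A.valuation.map_add_le (A.valuation.map_add_le ?_ ?_) ?_
      · rw [map_pow]; exact pow_le_one₀ zero_le hle
      · rw [map_mul, map_pow]
        exact mul_le_one' (valuation_intCast_le_one A _) (pow_le_one₀ zero_le hle)
      · rw [map_mul]
        exact mul_le_one' (valuation_intCast_le_one A _) hle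
    · refine lt_of_le_of_lt (mul_le_of_le_one_right' ?_)
        (lt_of_le_of_lt (valuation_b₂ h₂) h3)
      rw [map_pow]; exact pow_le_one₀ zero_le hle
  rw [valuation_b₈ hA h₈] at hlt
  exact lt_irrefl _ hlt

include hA h₂ h₈ in
theorem root_estimate (hx : IsPsiThreeRoot b₂ b₄ b₆ b₈ x) :
    A.valuation (3 * x ^ 4) = 1 ∧ A.valuation (3 * x ^ 4 + b₈) < 1 := by
  have hx1 := one_lt_valuation_root hA h₂ h₈ hx
  have h30 := valuation_three_pos A
  set R : Qbar := b₂ * x ^ 3 + 3 * (b₄ * x ^ 2 + b₆ * x) with hR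
  have hRle : A.valuation R ≤ A.valuation 3 * A.valuation x ^ 3 := by
    refine A.valuation.map_add_le ?_ ?_ <;> rw [map_mul]
    · rw [map_pow]; exact mul_le_mul' (valuation_b₂ h₂) le_rfl
    · refine mul_le_mul' le_rfl (A.valuation.map_add_le ?_ ?_) <;> rw [map_mul]
      · refine le_trans (mul_le_of_le_one_left' (valuation_intCast_le_one A _)) ?_
        rw [map_pow]; exact pow_le_pow_right₀ hx1.le (by norm_num)
      · exact le_trans (mul_le_of_le_one_left' (valuation_intCast_le_one A _))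
          (le_self_pow₀ hx1.le (by norm_num))
  have hR4 : A.valuation R < A.valuation (3 * x ^ 4) := by
    refine hRle.trans_lt ?_
    rw [map_mul, map_pow]
    exact mul_lt_mul_of_pos_left (pow_lt_pow_right₀ hx1 (by norm_num)) h30
  have hsum : 3 * x ^ 4 + R = -(b₈ : Qbar) := by
    unfold IsPsiThreeRoot at hx; rw [hR]; linear_combination hx
  have h1 : A.valuation (3 * x ^ 4) = 1 := by
    rw [← A.valuation.map_add_eq_of_lt_left hR4, hsum, A.valuation.map_neg, valuation_b₈ hA h₈]
  refine ⟨h1, ?_⟩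
  rw [show 3 * x ^ 4 + (b₈ : Qbar) = -R by linear_combination hsum, A.valuation.map_neg]
  exact hR4.trans_eq h1

include hA h₂ h₈ in
theorem root_ne_zero (hx : IsPsiThreeRoot b₂ b₄ b₆ b₈ x) : x ≠ 0 := by
  rintro rfl
  have := one_lt_valuation_root hA h₂ h₈ hx
  simp at this

include hA h₂ h₈ in
theorem valuation_ratio (hx : IsPsiThreeRoot b₂ b₄ b₆ b₈ x)
    (hy : IsPsiThreeRoot b₂ b₄ b₆ b₈ y) : A.valuation (y / x) = 1 := by
  have h1 := (root_estimate hA h₂ h₈ hx).1
  have h2 := (root_estimate hA h₂ h₈ hy).1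
  have h0 := root_ne_zero hA h₂ h₈ hx
  rw [← h1, map_mul, map_mul, map_pow, map_pow] at h2
  have h3 := mul_left_cancel₀ (valuation_three_pos A).ne' h2
  rw [map_div₀, (pow_left_inj₀ zero_le zero_le (by norm_num)).mp h3,
    div_self ((map_ne_zero _).2 h0)]

include hA h₂ h₈ in
theorem ratio_pow_four (hx : IsPsiThreeRoot b₂ b₄ b₆ b₈ x)
    (hy : IsPsiThreeRoot b₂ b₄ b₆ b₈ y) : Cong A ((y / x) ^ 4) 1 := by
  obtain ⟨h1, hx'⟩ := root_estimate hA h₂ h₈ hx
  obtain ⟨-, hy'⟩ := root_estimate hA h₂ h₈ hy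
  have h0 := root_ne_zero hA h₂ h₈ hx
  have key : (3 * x ^ 4) * ((y / x) ^ 4 - 1) =
      (3 * y ^ 4 + (b₈ : Qbar)) - (3 * x ^ 4 + (b₈ : Qbar)) := by
    field_simp; ring
  have h := congrArg A.valuation key
  rw [map_mul, h1, one_mul] at h
  rw [Cong, h]
  exact A.valuation.map_sub_lt hy' hx'

include hA h₂ h₈ in
/-- Congruent roots are equal. -/
theorem eq_of_ratio_cong (hx : IsPsiThreeRoot b₂ b₄ b₆ b₈ x)
    (hy : IsPsiThreeRoot b₂ b₄ b₆ b₈ y) (hz : IsPsiThreeRoot b₂ b₄ b₆ b₈ z)
    (h : Cong A (y / x) (z / x)) : y = z := by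
  by_contra hne
  have hx1 := one_lt_valuation_root hA h₂ h₈ hx
  have h0 := root_ne_zero hA h₂ h₈ hx
  set a := y / x with ha
  set c := z / x with hc
  have hav : A.valuation a = 1 := valuation_ratio hA h₂ h₈ hx hy
  have hcv : A.valuation c = 1 := valuation_ratio hA h₂ h₈ hx hz
  have hyx : y = a * x := by rw [ha]; field_simp
  have hzx : z = c * x := by rw [hc]; field_simp
  set Q : Qbar := a ^ 3 + a ^ 2 * c + a * c ^ 2 + c ^ 3 with hQ
  set R : Qbar := b₂ * ((a ^ 2 + a * c + c ^ 2) * x ^ 2) +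
    3 * (b₄ * ((a + c) * x) + b₆) with hR
  have hsum : 3 * x ^ 3 * Q + R = 0 := by
    unfold IsPsiThreeRoot at hy hz
    rw [hyx] at hy; rw [hzx] at hz
    have : (a - c) * x * (3 * x ^ 3 * Q + R) = 0 := by
      rw [hQ, hR]; linear_combination hy - hz
    refine (mul_eq_zero.mp this).resolve_left (mul_ne_zero (sub_ne_zero.mpr ?_) h0)
    intro e; exact hne (by rw [hyx, hzx, e])
  have h3 := valuation_three_lt_one hA
  have hQ1 : A.valuation Q = 1 := by
    have e : Q = c ^ 3 + (3 * c ^ 3 + ((a - c) * (a ^ 2 + 2 * a * c + 3 * c ^ 2))) := by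
      rw [hQ]; ring
    have h2v : A.valuation (2 : Qbar) ≤ 1 := by
      simp
    have hlt : A.valuation (3 * c ^ 3 + ((a - c) * (a ^ 2 + 2 * a * c + 3 * c ^ 2))) < 1 := by
      refine A.valuation.map_add_lt ?_ ?_ <;> rw [map_mul]
      · rw [map_pow, hcv, one_pow, mul_one]; exact h3
      · refine lt_of_le_of_lt (mul_le_of_le_one_right' ?_) h
        refine A.valuation.map_add_le (A.valuation.map_add_le ?_ ?_) ?_
        · rw [map_pow, hav, one_pow]
        · rw [map_mul, map_mul, hav, hcv, mul_one, mul_one]; exact h2v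
        · rw [map_mul, map_pow, hcv, one_pow, mul_one]; exact h3.le
    rw [e, A.valuation.map_add_eq_of_lt_left (by rwa [map_pow, hcv, one_pow]), map_pow, hcv, one_pow]
  have hRlt : A.valuation R < A.valuation (3 * x ^ 3 * Q) := by
    rw [map_mul, hQ1, mul_one, map_mul, map_pow]
    refine lt_of_le_of_lt (b := A.valuation (3 : Qbar) * A.valuation x ^ 2) ?_
      (mul_lt_mul_of_pos_left (pow_lt_pow_right₀ hx1 (by norm_num)) (valuation_three_pos A))
    refine A.valuation.map_add_le ?_ ?_ <;> rw [map_mul]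
    · refine mul_le_mul' (valuation_b₂ h₂) ?_
      rw [map_mul, map_pow]
      refine mul_le_of_le_one_left' (A.valuation.map_add_le (A.valuation.map_add_le ?_ ?_) ?_) <;>
        simp [hav, hcv]
    · refine mul_le_mul' le_rfl (A.valuation.map_add_le ?_ ?_)
      · rw [map_mul, map_mul]
        refine le_trans (mul_le_of_le_one_left' (valuation_intCast_le_one A _)) ?_
        refine le_trans (mul_le_of_le_one_left' (A.valuation.map_add_le hav.le hcv.le)) ?_
        exact le_self_pow₀ hx1.le (by norm_num)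
      · exact le_trans (valuation_intCast_le_one A _) (one_le_pow₀ hx1.le)
  have := A.valuation.map_add_eq_of_lt_left hRlt
  rw [hsum, map_zero] at this
  rw [← this] at hRlt
  exact not_lt.mpr zero_le hRlt

include hA h₂ h₈ in
/-- A decomposition element fixing a root has square fixing every root. -/
theorem sq_apply_root (hx : IsPsiThreeRoot b₂ b₄ b₆ b₈ x)
    (hy : IsPsiThreeRoot b₂ b₄ b₆ b₈ y) {σ : GalQ} (hσ : σ ∈ A.decompositionSubgroup ℚ)
    (hfix : σ x = x) : σ (σ y) = y := by
  refine eq_of_ratio_cong hA h₂ h₈ hx (hy.map σ |>.map σ) hy ?_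
  have h1 : σ (σ y) / x = σ (σ (y / x)) := by rw [map_div₀, hfix, map_div₀, hfix]
  rw [h1]
  have hu := ratio_pow_four hA h₂ h₈ hx hy
  set u := y / x
  rcases sq_cong_cases (a := u ^ 2) (c := 1) (by simpa [← pow_mul] using hu) with h | h
  · -- `u ≡ ±1`
    have hpm : Cong A u 1 ∨ Cong A u (-1) := sq_cong_cases (by simpa using h)
    rcases hpm with e | e
    · have := (e.map hσ).map hσ
      simp only [map_one] at this
      exact this.trans e.symm
    · have := (e.map hσ).map hσ
      simp only [map_neg, map_one] at this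
      exact this.trans e.symm
  · -- `u² ≡ -1`
    have hσu : Cong A ((σ u) ^ 2) (-1) := by simpa using h.map hσ
    rcases sq_cong_cases (hσu.trans h.symm) with e | e
    · exact (e.map hσ).trans e
    · have e' := e.map hσ
      rw [map_neg] at e'
      refine e'.trans ?_
      simpa using e.neg

include hA h₂ h₈ in
/-- Some inertia element moves a root with its square. -/
theorem exists_inertia_sq_ne (hx : IsPsiThreeRoot b₂ b₄ b₆ b₈ x) :
    ∃ σ ∈ A.inertiaSubgroupIn ℚ, σ (σ x) ≠ x := by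
  classical
  by_contra hcon
  simp only [not_exists, not_and, not_not] at hcon
  have hx0 := root_ne_zero hA h₂ h₈ hx
  have hpm : ∀ τ ∈ A.inertiaSubgroupIn ℚ, Cong A (τ x / x) 1 ∨ Cong A (τ x / x) (-1) := by
    intro τ hτ
    refine sq_cong_cases ?_
    set w := τ x / x with hw
    have hwA : w ∈ A := (A.valuation_le_one_iff _).1
      (valuation_ratio hA h₂ h₈ hx (hx.map τ)).le
    have hc : Cong A (τ w) w := (mem_inertiaSubgroupIn_iff.1 hτ).2 w hwA
    have he : τ w * w = 1 := by
      rw [hw, map_div₀, hcon τ hτ]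
      have : τ x ≠ 0 := by simpa using hx0
      field_simp
    have := hc.mul (Cong.rfl' w) (by rw [valuation_apply_of_mem_inertia hτ,
      valuation_ratio hA h₂ h₈ hx (hx.map τ)]) (valuation_ratio hA h₂ h₈ hx (hx.map τ)).le
    rw [he] at this
    rw [one_pow, pow_two]
    exact this.symm
  have hS : ∀ τ ∈ A.inertiaSubgroupIn ℚ, ∀ τ' ∈ A.inertiaSubgroupIn ℚ,
      τ x ≠ x → τ' x ≠ x → τ x = τ' x := by
    intro τ hτ τ' hτ' h h'
    have hne : ∀ π ∈ A.inertiaSubgroupIn ℚ, π x ≠ x → Cong A (π x / x) (-1) := fun π hπ hπx =>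
      (hpm π hπ).resolve_left fun hc => hπx (eq_of_ratio_cong hA h₂ h₈ hx (hx.map π) hx
        (by rwa [div_self hx0]))
    exact eq_of_ratio_cong hA h₂ h₈ hx (hx.map τ) (hx.map τ')
      ((hne τ hτ h).trans (hne τ' hτ' h').symm)
  have hvx := (root_estimate hA h₂ h₈ hx).1
  rw [map_mul, map_pow] at hvx
  have hp0 := valuation_three_pos A
  have hp1 := valuation_three_lt_one hA
  have final : ∀ (P : Qbar) (c : ℕ), (c = 1 ∨ c = 2) → A.valuation P = A.valuation x ^ c →
      (∀ τ ∈ A.inertiaSubgroupIn ℚ, τ P = P) → False := by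
    intro P c hc hP hfix
    have hP0 : P ≠ 0 := by
      intro e
      rw [e, map_zero] at hP
      exact pow_ne_zero c ((map_ne_zero _).2 hx0) hP.symm
    obtain ⟨j, hj⟩ := FlatBound.exists_zpow_of_inertia_fixed hA Nat.prime_three hP0 hfix
    rw [Nat.cast_ofNat, hP] at hj
    have h4 : A.valuation (3 : Qbar) ^ ((4 : ℤ) * j + c) = A.valuation (3 : Qbar) ^ (0 : ℤ) := by
      rw [zpow_zero, zpow_add₀ hp0.ne', mul_comm (4 : ℤ) j, zpow_mul, ← hj, zpow_natCast,
        show ((4 : ℤ)) = ((4 : ℕ) : ℤ) from rfl, zpow_natCast, ← pow_mul, mul_comm c 4, pow_mul,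
        ← mul_pow, mul_comm, hvx, one_pow]
    have := (zpow_right_inj₀ hp0 hp1.ne).1 h4
    omega
  by_cases hmove : ∃ τ ∈ A.inertiaSubgroupIn ℚ, τ x ≠ x
  · obtain ⟨τ₀, hτ₀, hne⟩ := hmove
    refine final (x * τ₀ x) 2 (Or.inr rfl) (by
      rw [map_mul, valuation_apply_of_mem_inertia hτ₀, pow_two]) fun τ hτ => ?_
    rw [map_mul]
    by_cases hτx : τ x = x
    · have h1 : τ (τ₀ x) = τ₀ x := by
        refine hS (τ * τ₀) (mul_mem hτ hτ₀) τ₀ hτ₀ (fun e => hne ?_) hne
        rw [AlgEquiv.mul_apply] at e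
        exact τ.injective (e.trans hτx.symm)
      rw [hτx, h1]
    · have e1 : τ x = τ₀ x := hS τ hτ τ₀ hτ₀ hτx hne
      have e2 : τ (τ₀ x) = x := by rw [← e1]; exact hcon τ hτ
      rw [e1, e2, mul_comm]
  · simp only [not_exists, not_and, not_not] at hmove
    exact final x 1 (Or.inl rfl) (pow_one _).symm hmove

include hA h₂ h₈ in
/-- Inertia permutes the roots cyclically. -/
theorem inertia_cyclic (hx : IsPsiThreeRoot b₂ b₄ b₆ b₈ x) {σ τ : GalQ}
    (hσ : σ ∈ A.inertiaSubgroupIn ℚ) (hσx : σ (σ x) ≠ x) (hτ : τ ∈ A.inertiaSubgroupIn ℚ) :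
    ∃ k : ℕ, ∀ y, IsPsiThreeRoot b₂ b₄ b₆ b₈ y → τ y = (σ ^ k) y := by
  have hx0 := root_ne_zero hA h₂ h₈ hx
  have hfix : ∀ π ∈ A.inertiaSubgroupIn ℚ, ∀ {y : Qbar}, IsPsiThreeRoot b₂ b₄ b₆ b₈ y →
      Cong A (π y / x) (y / x * (π x / x)) := by
    intro π hπ y hy
    have hv := valuation_ratio hA h₂ h₈ hx hy
    have hc : Cong A (π (y / x)) (y / x) :=
      (mem_inertiaSubgroupIn_iff.1 hπ).2 _ ((A.valuation_le_one_iff _).1 hv.le)
    have h := hc.mul (Cong.rfl' (π x / x)) (by rw [valuation_apply_of_mem_inertia hπ, hv])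
      (valuation_ratio hA h₂ h₈ hx (hx.map π)).le
    rwa [map_div₀, div_mul_div_cancel₀ (by simpa using hx0 : π x ≠ 0)] at h
  set i := σ x / x with hi
  have hiv : A.valuation i = 1 := valuation_ratio hA h₂ h₈ hx (hx.map σ)
  have hσ2 : Cong A (σ (σ x) / x) (i ^ 2) := by
    have := hfix σ hσ (hx.map σ)
    rwa [← pow_two] at this
  have hi4 := ratio_pow_four hA h₂ h₈ hx (hx.map σ)
  have hi2 : Cong A (i ^ 2) (-1) := (sq_cong_cases (a := i ^ 2) (c := 1)
    (by simpa [← pow_mul] using hi4)).resolve_left fun h => hσx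
      (eq_of_ratio_cong hA h₂ h₈ hx ((hx.map σ).map σ) hx (by
        rw [div_self hx0]; exact hσ2.trans h))
  have hpow : ∀ k : ℕ, Cong A ((σ ^ k) x / x) (i ^ k) := by
    intro k
    induction k with
    | zero => simp [Cong, hx0]
    | succ k ih =>
      rw [pow_succ' σ k, AlgEquiv.mul_apply, pow_succ]
      exact (hfix σ hσ (hx.map (σ ^ k))).trans (ih.mul (Cong.rfl' i)
        (valuation_ratio hA h₂ h₈ hx (hx.map _)).le hiv.le)
  obtain ⟨k, hk⟩ : ∃ k : ℕ, Cong A (τ x / x) (i ^ k) := by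
    have hw := ratio_pow_four hA h₂ h₈ hx (hx.map τ)
    set w := τ x / x
    have hneg : Cong A (-1) (i ^ 2) := hi2.symm
    rcases sq_cong_cases (a := w ^ 2) (c := 1) (by simpa [← pow_mul] using hw) with h | h
    · rcases sq_cong_cases (a := w) (c := 1) (by simpa using h) with e | e
      · exact ⟨0, by simpa using e⟩
      · exact ⟨2, e.trans hneg⟩
    · rcases sq_cong_cases (h.trans hneg) with e | e
      · exact ⟨1, by simpa using e⟩
      · refine ⟨3, e.trans ?_⟩
        have h3 := hneg.mul (Cong.rfl' i) (by rw [A.valuation.map_neg, map_one]) hiv.le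
        rw [neg_one_mul, ← pow_succ] at h3
        exact h3
  refine ⟨k, fun y hy => eq_of_ratio_cong hA h₂ h₈ hx (hy.map τ) (hy.map _) ?_⟩
  have hv := valuation_ratio hA h₂ h₈ hx hy
  have h1 : Cong A (y / x * (τ x / x)) (y / x * i ^ k) :=
    (Cong.rfl' _).mul hk hv.le (by rw [map_pow, hiv, one_pow])
  have h2 : Cong A (y / x * ((σ ^ k) x / x)) (y / x * i ^ k) :=
    (Cong.rfl' _).mul (hpow k) hv.le (by rw [map_pow, hiv, one_pow])
  exact ((hfix τ hτ hy).trans h1).trans (h2.symm.trans (hfix _ (pow_mem hσ k) hy).symm)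

end Fermat.Agent.LT.GaloisData

end
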