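import Fermat.Agent.TWHyp.SurjThree
import Fermat.Agent.ThreeFive.Torsion
import Fermat.Agent.LT.GaloisData.Group
import Fermat.Agent.LT.GaloisData.RootsAtThree
import Fermat.Prelude.Def_GaloisRep_ModThreeCyclotomic

/-!
# The representation `ρ₃` of an integral curve with values in `GL₂(𝔽₃)`

Continuity, determinant, surjectivity, Frobenius traces, inertia away from `3`, and the
`x`-coordinates of `3`-torsion as roots of the division polynomial.
-/

set_option autoImplicit false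

noncomputable section

open WeierstrassCurve WeierstrassCurve.Affine WeierstrassCurve.Affine.Point
open scoped WeierstrassCurve.Affine
open Fermat.Agent.GaloisBasics (Qbar GalQ)
open Fermat.Agent.RepTheory (matRep matRep_apply)
open Fermat.Agent.LT.Final (GF3)

namespace Fermat.Agent.LT.GaloisData


instance factThree : Fact (Nat.Prime 3) := ⟨Nat.prime_three⟩

variable (W : WeierstrassCurve ℤ) (hΔ : W.Δ ≠ 0)

/-- `ρ₃` in a basis. -/
def rhoThree : GalQ →* GF3 :=
  (matRep (TWHyp.basisOf (TWHyp.residualRep W hΔ 3)) (TWHyp.residualRep W hΔ 3).ρ).toHomUnits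

/-- `rhoThree` as the matrix of the residual representation at three. -/
theorem coe_rhoThree (σ : GalQ) :
    (rhoThree W hΔ σ : Matrix (Fin 2) (Fin 2) (ZMod 3)) =
      matRep (TWHyp.basisOf (TWHyp.residualRep W hΔ 3)) (TWHyp.residualRep W hΔ 3).ρ σ := rfl

/-- `ρ₃` factors through a number field. -/
theorem rhoThree_factors :
    ∃ L : IntermediateField ℚ Qbar, FiniteDimensional ℚ L ∧
      ∀ σ : GalQ, (∀ x ∈ L, σ x = x) → rhoThree W hΔ σ = 1 := by
  obtain ⟨L, hL, h⟩ := (TWHyp.residualRep W hΔ 3).factorsThroughFiniteLevel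
  refine ⟨L, hL, fun σ hσ => Units.ext ?_⟩
  rw [coe_rhoThree, matRep_apply, h σ hσ, Module.End.one_eq_id, LinearMap.toMatrix_id,
    Units.val_one]

/-- `rhoThree` is continuous. -/
theorem rhoThree_continuous : Continuous (rhoThree W hΔ) := by
  obtain ⟨L, hL, h⟩ := rhoThree_factors W hΔ
  refine continuous_def.mpr fun s _ => isOpen_iff_mem_nhds.mpr fun g hg => ?_
  refine Filter.mem_of_superset
    ((L.fixingSubgroup_isOpen.smul g).mem_nhds ⟨1, one_mem _, mul_one g⟩) ?_
  rintro _ ⟨τ, hτ, rfl⟩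
  show rhoThree W hΔ (g * τ) ∈ s
  rw [map_mul, h τ ((IntermediateField.mem_fixingSubgroup_iff L τ).mp hτ), mul_one]
  exact hg

theorem isTWRep_rhoThree (hW : W.IsSemistableModel) (hirr : W.ModRepIsIrreducible 3) :
    TWHyp.IsTWRep 3 (matRep (TWHyp.basisOf (TWHyp.residualRep W hΔ 3))
      (TWHyp.residualRep W hΔ 3).ρ) :=
  TWHyp.isTWRep_matRep (TWHyp.isTWResidual_residualRep W hΔ hW hirr) _

/-- The determinant of `ρ₃` is the cyclotomic character. -/
theorem det_rhoThree (σ : GalQ) :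
    Matrix.GeneralLinearGroup.det (rhoThree W hΔ σ) = modThreeCyclotomicChar σ := by
  refine Units.ext ?_
  rw [Matrix.GeneralLinearGroup.val_det_apply, coe_rhoThree, RepTheory.det_matRep]
  have h := (TWHyp.residualRep_detIsCyclotomic (p := 3) W hΔ).2 1 σ
    ((modThreeCyclotomicChar σ : ZMod 3)).val (fun μ hμ => by
      rw [pow_one] at hμ
      have hmem : μ ∈ Set.range (fun t : rootsOfUnity 3 Qbar => ((t : Qbarˣ) : Qbar)) :=
        ⟨rootsOfUnity.mkOfPowEq μ hμ, rfl⟩
      obtain ⟨t, rfl⟩ := hmem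
      exact modularCyclotomicCharacter.spec (L := Qbar) (IsAlgClosed.card_rootsOfUnity_eq Qbar 3)
        (σ : Qbar ≃+* Qbar) t.2)
  rw [pow_one, ZMod.natCast_self, Ideal.mem_span_singleton, zero_dvd_iff, sub_eq_zero,
    ZMod.natCast_zmod_val] at h
  exact h

/-- An irreducible `ρ₃` of a semistable curve is surjective. -/
theorem rhoThree_surjective (hW : W.IsSemistableModel) (hirr : W.ModRepIsIrreducible 3) :
    Function.Surjective (rhoThree W hΔ) := by
  intro g
  have hne := (Matrix.GeneralLinearGroup.det g).ne_zero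
  rw [Matrix.GeneralLinearGroup.val_det_apply] at hne
  obtain ⟨σ, hσ⟩ := TWHyp.exists_eq_of_det_ne_zero (isTWRep_rhoThree W hΔ hW hirr)
    (M := (g : Matrix (Fin 2) (Fin 2) (ZMod 3))) hne
  exact ⟨σ, Units.ext hσ⟩

/-- Traces of Frobenius elements at good primes. -/
theorem trace_rhoThree {q : ℕ} (hq : q.Prime) (hgood : W.IsGoodPrimeFor q) (h3 : q ≠ 3)
    {A : ValuationSubring Qbar} (hA : A.LiesOverPrime q) {σ : GalQ} (hσ : A.IsFrobeniusAt σ q) :
    (rhoThree W hΔ σ : Matrix (Fin 2) (Fin 2) (ZMod 3)).trace = (W.apOfModel q : ZMod 3) := by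
  rw [coe_rhoThree, RepTheory.trace_matRep]
  exact (TWHyp.frobenius_trace_det W hq
    (fun h => h3 ((Nat.prime_dvd_prime_iff_eq hq Nat.prime_three).mp h)) hgood hA hσ).1

/-- Inertia away from `3` acts through elements of order dividing `3`. -/
theorem rhoThree_inertia (hW : W.IsSemistableModel) (hirr : W.ModRepIsIrreducible 3) {q : ℕ}
    (hq : q.Prime) (h3 : q ≠ 3) {A : ValuationSubring Qbar} (hA : A.LiesOverPrime q) {σ : GalQ}
    (hσ : σ ∈ A.inertiaSubgroupIn ℚ) :
    rhoThree W hΔ σ ∈ slGroup ∧ rhoThree W hΔ σ ^ 3 = 1 ∧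
      (rhoThree W hΔ σ ∈ quatGroup → rhoThree W hΔ σ = 1) := by
  have h := (isTWRep_rhoThree W hΔ hW hirr).unipotent q hq h3 A hA σ hσ
  rw [← coe_rhoThree] at h
  set g := rhoThree W hΔ σ
  have hfin : ∀ a b c d : ZMod 3, a * d - b * c ≠ 0 →
      (!![a, b; c, d] - 1) * (!![a, b; c, d] - 1) = 0 →
        !![a, b; c, d] ^ 3 = 1 ∧ a * d - b * c = 1 := by decide +kernel
  have h' : ((g : Matrix (Fin 2) (Fin 2) (ZMod 3)) - 1) *
      ((g : Matrix (Fin 2) (Fin 2) (ZMod 3)) - 1) = 0 →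
      (g : Matrix (Fin 2) (Fin 2) (ZMod 3)) ^ 3 = 1 ∧
        (g : Matrix (Fin 2) (Fin 2) (ZMod 3)).det = 1 := by
    refine forall_gf3 (P := fun M => (M - 1) * (M - 1) = 0 → M ^ 3 = 1 ∧ M.det = 1) ?_ g
    intro a b c d hne hM
    rw [Matrix.det_fin_two_of]
    exact hfin a b c d hne hM
  obtain ⟨h3', hdet⟩ := h' h
  have hg3 : g ^ 3 = 1 := Units.ext (by rw [Units.val_pow_eq_pow_val, h3', Units.val_one])
  refine ⟨(det_eq_one_iff g).mpr hdet, hg3, fun hQ => ?_⟩
  have h4 : g ^ 4 = 1 := hQ.2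
  rwa [pow_succ, hg3, one_mul] at h4

/-- The `x`-coordinate of the torsion point with given coordinates. -/
theorem exists_xCoord :
    ∃ χ : (Fin 2 → ZMod 3) → Qbar,
      (∀ v, v ≠ 0 → IsPsiThreeRoot W.b₂ W.b₄ W.b₆ W.b₈ (χ v)) ∧
      (∀ (σ : GalQ) v, v ≠ 0 →
        χ ((rhoThree W hΔ σ : Matrix (Fin 2) (Fin 2) (ZMod 3)).mulVec v) = σ (χ v)) ∧
      (∀ v w, v ≠ 0 → w ≠ 0 → χ v = χ w → w = v ∨ w = -v) ∧ ∀ v, χ (-v) = χ v := by
  classical
  set b := TWHyp.basisOf (TWHyp.residualRep W hΔ 3) with hb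
  let xc : ((W.map (Int.castRingHom ℚ))⁄Qbar).Point → Qbar := fun P => match P with
    | 0 => 0
    | .some x _ _ => x
  let pt : (Fin 2 → ZMod 3) → Submodule.torsionBy ℤ ((W.map (Int.castRingHom ℚ))⁄Qbar).Point
      ((3 : ℕ) : ℤ) := fun v => b.equivFun.symm v
  have hpt0 : ∀ {v}, v ≠ 0 → (pt v).1 ≠ 0 := fun {v} hv e =>
    hv ((LinearEquiv.map_eq_zero_iff _).mp (Subtype.ext e : pt v = 0))
  have hsmul : ∀ (σ : GalQ) v,
      pt ((rhoThree W hΔ σ : Matrix (Fin 2) (Fin 2) (ZMod 3)).mulVec v) = σ • pt v := by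
    intro σ v
    show b.equivFun.symm _ = (TWHyp.residualRep W hΔ 3).ρ σ (b.equivFun.symm v)
    apply b.equivFun.injective
    rw [LinearEquiv.apply_symm_apply, coe_rhoThree, matRep_apply, ← hb,
      Module.Basis.equivFun_apply]
    have := LinearMap.toMatrix_mulVec_repr b b ((TWHyp.residualRep W hΔ 3).ρ σ)
      (b.equivFun.symm v)
    rwa [← Module.Basis.equivFun_apply, LinearEquiv.apply_symm_apply] at this
  have hneg : ∀ v, xc (pt (-v)).1 = xc (pt v).1 := fun v => by
    rw [show pt (-v) = -pt v from map_neg b.equivFun.symm v]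
    show xc (-(pt v).1) = xc (pt v).1
    generalize (pt v).1 = P
    rcases P with _ | ⟨x, y, hxy⟩
    · rfl
    · rw [Point.neg_some]
  refine ⟨fun v => xc (pt v).1, fun v hv => ?_, fun σ v hv => ?_, fun v w hv hw h => ?_, hneg⟩
  · obtain ⟨x, y, hxy, e, hroot⟩ := ThreeFive.psi3_of_torsion _ (hpt0 hv)
      (by exact_mod_cast (Submodule.mem_torsionBy_iff _ _).mp (pt v).2)
    show IsPsiThreeRoot _ _ _ _ (xc (pt v).1)
    rw [e]
    show IsPsiThreeRoot W.b₂ W.b₄ W.b₆ W.b₈ x
    obtain ⟨e2, e4, e6, e8⟩ := ThreeFive.b_map (W.map (Int.castRingHom ℚ))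
    rw [e2, e4, e6, e8] at hroot
    simp only [ThreeFive.psi3B, map_b₂, map_b₄, map_b₆, map_b₈, eq_intCast, map_intCast] at hroot
    unfold IsPsiThreeRoot
    linear_combination hroot
  · show xc (pt _).1 = σ (xc (pt v).1)
    rw [hsmul]
    show xc (σ • (pt v).1) = σ (xc (pt v).1)
    generalize (pt v).1 = P
    rcases P with _ | ⟨x, y, hxy⟩
    · exact (map_zero σ).symm
    · rw [algEquiv_smul_def, Point.map_some]; rfl
  · have hP := hpt0 hv
    have hQ := hpt0 hw
    have h' : xc (pt v).1 = xc (pt w).1 := h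
    have key : pt w = pt v ∨ pt w = -pt v := by
      rcases hPe : (pt v).1 with _ | ⟨x, y, hxy⟩
      · exact absurd hPe hP
      rcases hQe : (pt w).1 with _ | ⟨x', y', hxy'⟩
      · exact absurd hQe hQ
      rw [hPe, hQe] at h'
      have h'' : x = x' := h'
      rcases (Point.X_eq_iff (h₁ := hxy') (h₂ := hxy)).mp h''.symm with e | e
      · exact Or.inl (Subtype.ext (hQe.trans (e.trans hPe.symm)))
      · exact Or.inr (Subtype.ext (hQe.trans (e.trans (by rw [← hPe]; rfl))))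
    rcases key with e | e
    · exact Or.inl (b.equivFun.symm.injective e)
    · refine Or.inr (b.equivFun.symm.injective ?_)
      show pt w = pt (-v)
      rw [e]
      exact (map_neg b.equivFun.symm v).symm

end Fermat.Agent.LT.GaloisData

end
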